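import Fermat.Agent.Newform.Occurs

/-!
# Eigensystems persist at multiples of the level
-/

set_option autoImplicit false

noncomputable section

namespace FLTAgent.Newform

open CongruenceSubgroup ModularFormClass CuspForm

/-- An eigenform of level `M` gives one of every level `N` with `M ∣ N`, with the same eigenvalues
away from `N`. -/
theorem exists_eigenform_of_dvd {M N : ℕ} [NeZero M] [NeZero N] (h : M ∣ N)
    {f : CuspForm (Gamma0 M) 2} (hf : f.IsNormalizedEigenform) :
    ∃ g : CuspForm (Gamma0 N) 2, g.IsNormalizedEigenform ∧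
      ∀ ℓ : ℕ, ℓ.Prime → ¬ ℓ ∣ N → qCoeff g ℓ = qCoeff f ℓ := by
  obtain ⟨g, hg, hgl⟩ := exists_eigenform_of_partialEigen (levelUp h f)
    (fun e => Quick.eigenform_ne_zero hf (levelUp_injective h (e.trans (map_zero _).symm)))
    {ℓ | ℓ ∣ N} (fun ℓ => qCoeff f ℓ)
    (fun ℓ hℓ hℓN _ => by rw [heckeTLin_levelUp, Quick.heckeTLin_eigenform hf hℓ, map_smul])
    (fun q _ hqN hq => absurd hqN hq)
  exact ⟨g, hg, fun ℓ hℓ hℓN => hgl ℓ hℓ hℓN⟩

end FLTAgent.Newform
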