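import Fermat.Agent.Quick.HeckeEigenform
import Fermat.Agent.LevelRaise.HeckeOp

/-!
# Changing the level of cusp forms: inclusions and `f(τ) ↦ f(d τ)`
-/

set_option autoImplicit false

noncomputable section

namespace FLTAgent.Newform

open UpperHalfPlane CongruenceSubgroup ModularFormClass ModularForm
open scoped MatrixGroups ModularForm Manifold

variable {k : ℤ} {M N : ℕ}

/-! ### Integral matrices as real matrices -/

/-- An integral matrix of nonzero determinant, in `GL(2, ℝ)`. -/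
def matGL (A : Matrix (Fin 2) (Fin 2) ℤ) : GL (Fin 2) ℝ :=
  if h : A.det ≠ 0 then
    Matrix.GeneralLinearGroup.mkOfDetNeZero (A.map (Int.castRingHom ℝ))
      (by rw [← RingHom.mapMatrix_apply, ← RingHom.map_det, eq_intCast]; exact_mod_cast h)
  else 1

theorem val_matGL {A : Matrix (Fin 2) (Fin 2) ℤ} (h : A.det ≠ 0) :
    (matGL A : Matrix (Fin 2) (Fin 2) ℝ) = A.map (Int.castRingHom ℝ) := by
  rw [matGL, dif_pos h]
  rfl

theorem matGL_mul {A B : Matrix (Fin 2) (Fin 2) ℤ} (hA : A.det ≠ 0) (hB : B.det ≠ 0) :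
    matGL (A * B) = matGL A * matGL B := by
  refine Units.ext ?_
  rw [Units.val_mul, val_matGL hA, val_matGL hB,
    val_matGL (by rw [Matrix.det_mul]; exact mul_ne_zero hA hB), Matrix.map_mul]

theorem matGL_matSL (γ : SL(2, ℤ)) : matGL (LevelRaise.matSL γ) = (γ : GL (Fin 2) ℝ) := by
  refine Units.ext ?_
  rw [val_matGL (show (LevelRaise.matSL γ).det ≠ 0 by
    rw [show (LevelRaise.matSL γ).det = 1 from γ.det_coe]; exact one_ne_zero)]
  rfl

theorem det_matGL {A : Matrix (Fin 2) (Fin 2) ℤ} (h : A.det ≠ 0) :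
    ((matGL A).det : ℝ) = (A.det : ℝ) := by
  rw [Matrix.GeneralLinearGroup.val_det_apply, val_matGL h, ← RingHom.mapMatrix_apply,
    ← RingHom.map_det, eq_intCast]

theorem det_matGL_pos {A : Matrix (Fin 2) (Fin 2) ℤ} (h : 0 < A.det) :
    0 < ((matGL A).det : ℝ) := by
  rw [det_matGL h.ne']
  exact_mod_cast h

/-- Scalar matrices act trivially in weight two. -/
theorem slash_matGL_scalar (f : ℍ → ℂ) {c : ℤ} (hc : c ≠ 0) :
    f ∣[(2 : ℤ)] matGL (c • 1) = f := by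
  have hdet : (c • (1 : Matrix (Fin 2) (Fin 2) ℤ)).det = c ^ 2 := by
    rw [Matrix.det_smul, Matrix.det_one, mul_one, Fintype.card_fin]
  have hd : (c • (1 : Matrix (Fin 2) (Fin 2) ℤ)).det ≠ 0 := by rw [hdet]; exact pow_ne_zero _ hc
  have hpos : 0 < ((matGL (c • 1)).det : ℝ) := by
    refine det_matGL_pos ?_
    rw [hdet]
    positivity
  have e00 : ((matGL (c • 1) : Matrix (Fin 2) (Fin 2) ℝ) 0 0) = c := by
    rw [val_matGL hd, Matrix.map_apply, Matrix.smul_apply]; simp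
  have e01 : ((matGL (c • 1) : Matrix (Fin 2) (Fin 2) ℝ) 0 1) = 0 := by
    rw [val_matGL hd, Matrix.map_apply, Matrix.smul_apply]; simp
  have e10 : ((matGL (c • 1) : Matrix (Fin 2) (Fin 2) ℝ) 1 0) = 0 := by
    rw [val_matGL hd, Matrix.map_apply, Matrix.smul_apply]; simp
  have e11 : ((matGL (c • 1) : Matrix (Fin 2) (Fin 2) ℝ) 1 1) = c := by
    rw [val_matGL hd, Matrix.map_apply, Matrix.smul_apply]; simp
  have hc' : (c : ℂ) ≠ 0 := by exact_mod_cast hc
  funext τ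
  have hsm : matGL (c • 1) • τ = τ := by
    refine UpperHalfPlane.ext ?_
    rw [UpperHalfPlane.coe_smul_of_det_pos hpos]
    simp only [UpperHalfPlane.num, UpperHalfPlane.denom, e00, e01, e10, e11]
    push_cast
    field_simp
    ring_nf
    field_simp
  rw [ModularForm.slash_apply, hsm, UpperHalfPlane.σ, if_pos hpos, abs_of_pos hpos, det_matGL hd,
    hdet, UpperHalfPlane.denom, e10, e11]
  simp
  field_simp

/-! ### Cusp forms as functions -/

/-- `F` is a cusp form of weight `k` on `Γ₀(M)`. -/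
structure IsCF (M : ℕ) (k : ℤ) (F : ℍ → ℂ) : Prop where
  holo : MDiff F
  inv : ∀ γ ∈ Gamma0 M, F ∣[k] (γ : GL (Fin 2) ℝ) = F
  zero : ∀ c : OnePoint ℝ, IsCusp c 𝒮ℒ → c.IsZeroAt F k

theorem isCusp_gamma0 [NeZero M] {c : OnePoint ℝ} :
    IsCusp c (Gamma0 M : Subgroup (GL (Fin 2) ℝ)) ↔ IsCusp c 𝒮ℒ :=
  Subgroup.IsArithmetic.isCusp_iff_isCusp_SL2Z _

/-- The bundled cusp form. -/
def IsCF.toCF [NeZero M] {F : ℍ → ℂ} (h : IsCF M k F) : CuspForm (Gamma0 M) k where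
  toFun := F
  slash_action_eq' := by
    rintro _ ⟨γ, hγ, rfl⟩
    exact h.inv γ hγ
  holo' := h.holo
  zero_at_cusps' hc := h.zero _ (isCusp_gamma0.mp hc)

@[simp] theorem IsCF.coe_toCF [NeZero M] {F : ℍ → ℂ} (h : IsCF M k F) : ⇑h.toCF = F := rfl

theorem isCF_cuspForm [NeZero M] (f : CuspForm (Gamma0 M) k) : IsCF M k f :=
  ⟨f.holo', fun γ hγ => f.slash_action_eq' _ ⟨γ, hγ, rfl⟩,
    fun _ hc => f.zero_at_cusps' (isCusp_gamma0.mpr hc)⟩

theorem IsCF.zero' : IsCF M k (0 : ℍ → ℂ) :=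
  ⟨mdifferentiable_const, fun _ _ => SlashAction.zero_slash _ _,
    fun _ _ g _ => by rw [SlashAction.zero_slash]; exact Filter.zero_zeroAtFilter _⟩

theorem IsCF.add {F G : ℍ → ℂ} (hF : IsCF M k F) (hG : IsCF M k G) : IsCF M k (F + G) :=
  ⟨hF.holo.add hG.holo, fun γ hγ => by rw [SlashAction.add_slash, hF.inv γ hγ, hG.inv γ hγ],
    fun c hc => (hF.zero c hc).add (hG.zero c hc)⟩

theorem IsCF.mono {F : ℍ → ℂ} (hF : IsCF M k F) (h : M ∣ N) : IsCF N k F :=
  ⟨hF.holo, fun γ hγ => hF.inv γ (LevelRaise.gamma0_le h hγ), hF.zero⟩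

theorem IsCF.smul {F : ℍ → ℂ} (hF : IsCF M k F) (a : ℂ) : IsCF M k (a • F) := by
  refine ⟨hF.holo.const_smul a, fun γ hγ => ?_, fun c hc g hg => ?_⟩
  · have h1 : 0 < ((γ : GL (Fin 2) ℝ).det : ℝ) := by simp
    rw [ModularForm.smul_slash, hF.inv γ hγ, UpperHalfPlane.σ, if_pos h1]
    rfl
  · rw [ModularForm.smul_slash]
    exact (hF.zero c hc g hg).smul _

/-- A translate of a cusp form by an integral matrix of positive determinant vanishes at cusps. -/
theorem isZeroAt_slash_matGL [NeZero M] (f : CuspForm (Gamma0 M) k)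
    {A : Matrix (Fin 2) (Fin 2) ℤ} (hA : A.det ≠ 0) {c : OnePoint ℝ} (hc : IsCusp c 𝒮ℒ) :
    c.IsZeroAt (⇑f ∣[k] matGL A) k := by
  have hdetQ : (A.map (Int.castRingHom ℚ)).det ≠ 0 := by
    rw [← RingHom.mapMatrix_apply, ← RingHom.map_det, eq_intCast]; exact_mod_cast hA
  have hmap : matGL A = Matrix.GeneralLinearGroup.map (Rat.castHom ℝ)
      (Matrix.GeneralLinearGroup.mkOfDetNeZero (A.map (Int.castRingHom ℚ)) hdetQ) := by
    refine Units.ext ?_
    rw [val_matGL hA]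
    ext i j
    simp [Matrix.GeneralLinearGroup.mkOfDetNeZero]
  rw [hmap]
  exact OnePoint.IsZeroAt.smul_iff.mp (f.zero_at_cusps' (isCusp_gamma0.mpr (by
    rw [isCusp_SL2Z_iff] at hc ⊢
    obtain ⟨c, rfl⟩ := hc
    exact ⟨_, by rw [← Rat.coe_castHom, OnePoint.map_smul]⟩)))

theorem isZeroAt_finsetSum {ι : Type*} {c : OnePoint ℝ} (s : Finset ι) {F : ι → ℍ → ℂ}
    (h : ∀ i ∈ s, c.IsZeroAt (F i) k) : c.IsZeroAt (∑ i ∈ s, F i) k := by
  refine Finset.sum_induction _ (fun G : ℍ → ℂ => c.IsZeroAt G k) (fun _ _ ha hb => ha.add hb)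
    (fun g _ => ?_) h
  rw [SlashAction.zero_slash]
  exact Filter.zero_zeroAtFilter _

/-! ### Inclusion of levels -/

variable [NeZero M] [NeZero N]

/-- A form of level `M` regarded as a form of level `N`, for `M ∣ N`. -/
def levelUp (h : M ∣ N) : CuspForm (Gamma0 M) k →ₗ[ℂ] CuspForm (Gamma0 N) k where
  toFun f := ((isCF_cuspForm f).mono h).toCF
  map_add' f g := DFunLike.ext _ _ fun _ => rfl
  map_smul' a f := DFunLike.ext _ _ fun _ => rfl

@[simp] theorem coe_levelUp (h : M ∣ N) (f : CuspForm (Gamma0 M) k) : ⇑(levelUp h f) = ⇑f := rfl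

theorem levelUp_injective (h : M ∣ N) :
    Function.Injective (levelUp h : CuspForm (Gamma0 M) k → CuspForm (Gamma0 N) k) :=
  fun f g e => DFunLike.ext _ _ fun τ => DFunLike.congr_fun e τ

/-! ### Replacing `τ` by `d τ` -/

/-- `diag(d, 1)`. -/
theorem matGL_gUp {d : ℕ} (hd : d ≠ 0) : matGL (LevelRaise.gUp d) = heckeDiagMatrix d := by
  refine Units.ext ?_
  have : (LevelRaise.gUp d).det ≠ 0 := by simp [LevelRaise.gUp, Matrix.det_fin_two_of, hd]
  rw [val_matGL this, val_heckeDiagMatrix hd]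
  ext i j
  fin_cases i <;> fin_cases j <;> simp [LevelRaise.gUp]

theorem isCF_slash_diag (f : CuspForm (Gamma0 M) k) {d : ℕ} (hd : d ≠ 0) (h : M * d ∣ N) :
    IsCF N k (⇑f ∣[k] heckeDiagMatrix d) := by
  have : NeZero d := ⟨hd⟩
  refine ⟨(isCF_cuspForm f).holo.slash k _, fun γ hγ => ?_, fun c hc => ?_⟩
  · obtain ⟨δ, hδ, e⟩ := LevelRaise.exists_gUp_eq (LevelRaise.gamma0_le h hγ)
    have hdd : (LevelRaise.gUp d).det ≠ 0 := LevelRaise.det_gUp_pos.ne'
    have hS : ∀ s : SL(2, ℤ), (LevelRaise.matSL s).det ≠ 0 := fun s => by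
      rw [show (LevelRaise.matSL s).det = 1 from s.det_coe]; exact one_ne_zero
    have e' := congrArg matGL e
    rw [matGL_mul hdd (hS _), matGL_mul (hS _) hdd, matGL_matSL, matGL_matSL, matGL_gUp hd] at e'
    rw [← SlashAction.slash_mul, e', SlashAction.slash_mul, (isCF_cuspForm f).inv δ hδ.1]
  · rw [← matGL_gUp hd]
    exact isZeroAt_slash_matGL f LevelRaise.det_gUp_pos.ne' hc

/-- `f(τ) ↦ f(d τ)` from level `M` to level `N`, in weight two. -/
def scaleUp {d : ℕ} (hd : d ≠ 0) (h : M * d ∣ N) :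
    CuspForm (Gamma0 M) 2 →ₗ[ℂ] CuspForm (Gamma0 N) 2 where
  toFun f := ((isCF_slash_diag f hd h).smul (d : ℂ)⁻¹).toCF
  map_add' f g := DFunLike.ext _ _ fun τ => by
    simp [SlashAction.add_slash, smul_add]
  map_smul' a f := DFunLike.ext _ _ fun τ => by
    simp [ModularForm.smul_slash, σ_heckeDiagMatrix, mul_left_comm]

theorem scaleUp_apply {d : ℕ} (hd : d ≠ 0) (h : M * d ∣ N) (f : CuspForm (Gamma0 M) 2) (τ : ℍ) :
    scaleUp hd h f τ = f (heckeDiagMatrix d • τ) := by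
  show ((d : ℂ)⁻¹ • (⇑f ∣[(2 : ℤ)] heckeDiagMatrix d)) τ = _
  rw [Pi.smul_apply, slash_heckeDiagMatrix_apply 2 hd, smul_eq_mul, show (2 : ℤ) - 1 = 1 by norm_num,
    zpow_one, inv_mul_cancel_left₀ (by exact_mod_cast hd)]

omit [NeZero M] [NeZero N] in
theorem qParam_diag {d : ℕ} (hd : d ≠ 0) (τ : ℍ) :
    Function.Periodic.qParam 1 ((heckeDiagMatrix d • τ : ℍ) : ℂ)
      = Function.Periodic.qParam 1 (τ : ℂ) ^ d := by
  rw [coe_heckeDiagMatrix_smul hd]
  simp only [Function.Periodic.qParam, ← Complex.exp_nat_mul]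
  congr 1
  push_cast
  ring

theorem hasSum_scaleUp {d : ℕ} (hd : d ≠ 0) (h : M * d ∣ N) (f : CuspForm (Gamma0 M) 2) (τ : ℍ) :
    HasSum (fun m : ℕ => (if d ∣ m then qCoeff f (m / d) else 0) •
      Function.Periodic.qParam 1 (τ : ℂ) ^ m) (scaleUp hd h f τ) := by
  rw [scaleUp_apply]
  have : Fact (IsCusp OnePoint.infty (Gamma0 M : Subgroup (GL (Fin 2) ℝ))) :=
    ⟨Subgroup.isCusp_of_mem_strictPeriods one_pos (Quick.one_mem_strictPeriods M)⟩
  have hs := hasSum_qExpansion (f := ⇑f) one_pos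
    (SlashInvariantFormClass.periodic_comp_ofComplex f (Quick.one_mem_strictPeriods M))
    f.holo' (ModularFormClass.bdd_at_infty f) (heckeDiagMatrix d • τ)
  have hinj : Function.Injective fun m => d * m := mul_right_injective₀ hd
  refine (hinj.hasSum_iff (fun m hm => ?_)).mp ?_
  · have : ¬ d ∣ m := fun ⟨c, hc⟩ => hm ⟨c, hc.symm⟩
    rw [if_neg this, zero_smul]
  · refine hs.congr_fun fun m => ?_
    simp only [Function.comp_apply, dvd_mul_right, if_true, qParam_diag hd, ← pow_mul,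
      Nat.mul_div_cancel_left m (Nat.pos_of_ne_zero hd)]
    rfl

omit [NeZero M] [NeZero N] in
theorem qCoeff_eq_of_hasSum {K : ℕ} (G : CuspForm (Gamma0 K) 2) {c : ℕ → ℂ}
    (hs : ∀ τ : ℍ, HasSum (fun m : ℕ => c m • Function.Periodic.qParam 1 (τ : ℂ) ^ m) (G τ))
    (n : ℕ) : qCoeff G n = c n :=
  (ModularFormClass.qExpansion_coeff_unique (f := G) one_pos (Quick.one_mem_strictPeriods K) hs n).symm

theorem qCoeff_scaleUp {d : ℕ} (hd : d ≠ 0) (h : M * d ∣ N) (f : CuspForm (Gamma0 M) 2) (n : ℕ) :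
    qCoeff (scaleUp hd h f) n = if d ∣ n then qCoeff f (n / d) else 0 :=
  qCoeff_eq_of_hasSum (scaleUp hd h f) (hasSum_scaleUp hd h f) n

omit [NeZero M] [NeZero N] in
theorem qCoeff_levelUp [NeZero M] [NeZero N] (h : M ∣ N) (f : CuspForm (Gamma0 M) k) (n : ℕ) :
    qCoeff (levelUp h f) n = qCoeff f n := rfl

/-! ### Compatibility with Hecke operators -/

theorem heckeTLin_levelUp (h : M ∣ N) (f : CuspForm (Gamma0 M) k) {ℓ : ℕ} (hℓ : ℓ.Prime)
    (hℓN : ¬ ℓ ∣ N) :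
    CuspForm.heckeTLin k hℓ hℓN (levelUp h f)
      = levelUp h (CuspForm.heckeTLin k hℓ (fun hd => hℓN (hd.trans h)) f) :=
  DFunLike.coe_injective rfl

theorem heckeULin_levelUp (h : M ∣ N) (f : CuspForm (Gamma0 M) k) {q : ℕ} (hqM : q ∣ M) :
    CuspForm.heckeULin k (hqM.trans h) (levelUp h f) = levelUp h (CuspForm.heckeULin k hqM f) :=
  DFunLike.coe_injective rfl

theorem heckeTLin_scaleUp {d : ℕ} (hd : d ≠ 0) (h : M * d ∣ N) (f : CuspForm (Gamma0 M) 2)
    {ℓ : ℕ} (hℓ : ℓ.Prime) (hℓN : ¬ ℓ ∣ N) :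
    CuspForm.heckeTLin 2 hℓ hℓN (scaleUp hd h f)
      = scaleUp hd h (CuspForm.heckeTLin 2 hℓ
          (fun hd' => hℓN (hd'.trans ((dvd_mul_right M d).trans h))) f) := by
  have hℓd : ¬ ℓ ∣ d := fun hd' => hℓN (hd'.trans ((dvd_mul_left d M).trans h))
  have hcop : ℓ.Coprime d := (hℓ.coprime_iff_not_dvd).mpr hℓd
  refine Quick.eq_of_qCoeff_eq fun n => ?_
  simp only [Quick.qCoeff_heckeTLin, qCoeff_scaleUp]
  have hdl : d ∣ n * ℓ ↔ d ∣ n := ⟨fun h => hcop.symm.dvd_of_dvd_mul_right h, fun h => h.mul_right ℓ⟩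
  by_cases hdn : d ∣ n
  · obtain ⟨m, rfl⟩ := hdn
    have h1 : ∀ x, d * x / d = x := fun x => Nat.mul_div_cancel_left x (Nat.pos_of_ne_zero hd)
    have hiff : ℓ ∣ d * m ↔ ℓ ∣ m := ⟨fun h => hcop.dvd_of_dvd_mul_left h, fun h => h.mul_left d⟩
    rw [if_pos (hdl.mpr (dvd_mul_right d m)), if_pos (dvd_mul_right d m), mul_assoc, h1, h1]
    by_cases hlm : ℓ ∣ m
    · rw [if_pos (hiff.mpr hlm), if_pos hlm, Nat.mul_div_assoc d hlm,
        if_pos (dvd_mul_right d (m / ℓ)), h1]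
    · rw [if_neg (fun h => hlm (hiff.mp h)), if_neg hlm]
  · rw [if_neg (fun h => hdn (hdl.mp h)), if_neg hdn, zero_add]
    split_ifs with hln h2
    · exact absurd (h2.trans (Nat.div_dvd_of_dvd hln)) hdn
    · rw [mul_zero]
    · rfl

end FLTAgent.Newform
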