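import Fermat.Prelude.Def_CuspForm_Newforms
import Fermat.Agent.IntegralStructure.Duality
import Fermat.Agent.Newform.Basic

/-!
# Every eigensystem comes from a newform
-/

set_option autoImplicit false

noncomputable section

namespace FLTAgent.Newform

open CongruenceSubgroup ModularFormClass CuspForm

/-- A homomorphism to `ℂ` extends along an injective integral map. -/
theorem exists_extend_ringHom {R S : Type*} [CommRing R] [CommRing S] [Algebra R S]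
    (hinj : Function.Injective (algebraMap R S)) [Algebra.IsIntegral R S] (χ : R →+* ℂ) :
    ∃ ψ : S →+* ℂ, ψ.comp (algebraMap R S) = χ := by
  have : (RingHom.ker χ).IsPrime := RingHom.ker_isPrime χ
  obtain ⟨Q, -, hQ, hQP⟩ := Ideal.exists_ideal_over_prime_of_isIntegral (RingHom.ker χ) (⊥ : Ideal S)
    (fun x hx => by
      rw [Ideal.mem_comap, Ideal.mem_bot] at hx
      rw [hinj (hx.trans (map_zero _).symm)]
      exact zero_mem _)
  let P : Ideal R := RingHom.ker χ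
  have : P.IsPrime := RingHom.ker_isPrime χ
  have : Q.IsPrime := hQ
  let f : R ⧸ P →+* S ⧸ Q :=
    Ideal.quotientMap Q (algebraMap R S) (le_of_eq hQP.symm)
  let : Algebra (R ⧸ P) (S ⧸ Q) := f.toAlgebra
  let g : R ⧸ P →+* ℂ := Ideal.Quotient.lift P χ fun a ha => ha
  let : Algebra (R ⧸ P) ℂ := g.toAlgebra
  have hf : Function.Injective (algebraMap (R ⧸ P) (S ⧸ Q)) :=
    Ideal.quotientMap_injective' (le_of_eq hQP)
  have hg : Function.Injective (algebraMap (R ⧸ P) ℂ) :=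
    RingHom.lift_injective_of_ker_le_ideal _ (fun _ ha => ha) le_rfl
  have : Module.IsTorsionFree (R ⧸ P) (S ⧸ Q) := (Module.isTorsionFree_iff_algebraMap_injective).mpr hf
  have : Module.IsTorsionFree (R ⧸ P) ℂ := (Module.isTorsionFree_iff_algebraMap_injective).mpr hg
  have hint : Algebra.IsIntegral (R ⧸ P) (S ⧸ Q) := by
    refine ⟨fun x => ?_⟩
    obtain ⟨x, rfl⟩ := Ideal.Quotient.mk_surjective x
    obtain ⟨p, hp, hpx⟩ := Algebra.IsIntegral.isIntegral (R := R) x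
    refine ⟨p.map (Ideal.Quotient.mk P), hp.map _, ?_⟩
    rw [Polynomial.eval₂_map]
    show Polynomial.eval₂ (f.comp (Ideal.Quotient.mk P)) _ p = 0
    rw [show f.comp (Ideal.Quotient.mk P) = (Ideal.Quotient.mk Q).comp (algebraMap R S) from
      Ideal.quotientMap_comp_mk _, ← Polynomial.hom_eval₂, hpx, map_zero]
  let φ : S ⧸ Q →ₐ[R ⧸ P] ℂ := IsAlgClosed.lift
  refine ⟨φ.toRingHom.comp (Ideal.Quotient.mk Q), RingHom.ext fun r => ?_⟩
  exact φ.commutes (Ideal.Quotient.mk P r)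

variable {N : ℕ} [NeZero N]

/-- A character of the Hecke algebra away from `S` comes from a normalised eigenform. -/
theorem exists_eigenform_of_partialChar {S : Set ℕ} (χ : heckeAlgebra N 2 S →+* ℂ) :
    ∃ g : CuspForm (Gamma0 N) 2, g.IsNormalizedEigenform ∧
      (∀ (ℓ : ℕ) (hℓ : ℓ.Prime) (hℓN : ¬ ℓ ∣ N) (hℓS : ℓ ∉ S),
        qCoeff g ℓ = χ (heckeAlgebra.T hℓ hℓN hℓS)) ∧
      ∀ (q : ℕ) (hq : q.Prime) (hqN : q ∣ N) (hqS : q ∉ S),
        qCoeff g q = χ (heckeAlgebra.U hq hqN hqS) := by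
  have hle : heckeAlgebra N 2 S ≤ heckeAlgebra N 2 (∅ : Set ℕ) :=
    heckeAlgebra_mono (Set.empty_subset S)
  let ι : heckeAlgebra N 2 S →+* heckeAlgebra N 2 (∅ : Set ℕ) := (Subalgebra.inclusion hle).toRingHom
  let : Algebra (heckeAlgebra N 2 S) (heckeAlgebra N 2 (∅ : Set ℕ)) := ι.toAlgebra
  have hinj : Function.Injective (algebraMap (heckeAlgebra N 2 S) (heckeAlgebra N 2 (∅ : Set ℕ))) :=
    Subalgebra.inclusion_injective hle
  have := IntegralStructure.moduleFinite_heckeAlgebra (N := N) 2 (∅ : Set ℕ)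
  have : IsScalarTower ℤ (heckeAlgebra N 2 S) (heckeAlgebra N 2 (∅ : Set ℕ)) :=
    IsScalarTower.of_algebraMap_eq' (RingHom.ext_int _ _)
  have : Algebra.IsIntegral (heckeAlgebra N 2 S) (heckeAlgebra N 2 (∅ : Set ℕ)) :=
    Algebra.IsIntegral.tower_top ℤ
  obtain ⟨ψ, hψ⟩ := exists_extend_ringHom hinj χ
  obtain ⟨g, hg, -, hgt⟩ := IntegralStructure.exists_normalized_of_char ψ
  refine ⟨g, hg, fun ℓ hℓ hℓN hℓS => ?_, fun q hq hqN hqS => ?_⟩
  · have h : ψ (heckeAlgebra.T hℓ hℓN (Set.notMem_empty _)) = χ (heckeAlgebra.T hℓ hℓN hℓS) :=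
      RingHom.congr_fun hψ (heckeAlgebra.T hℓ hℓN hℓS)
    have h1 : CuspForm.heckeTLin 2 hℓ hℓN g = ψ (heckeAlgebra.T hℓ hℓN (Set.notMem_empty _)) • g :=
      hgt (heckeAlgebra.T hℓ hℓN (Set.notMem_empty _))
    rw [Quick.heckeTLin_eigenform hg hℓ hℓN] at h1
    rw [← h]
    exact smul_left_injective ℂ (Quick.eigenform_ne_zero hg) h1
  · have h : ψ (heckeAlgebra.U hq hqN (Set.notMem_empty _)) = χ (heckeAlgebra.U hq hqN hqS) :=
      RingHom.congr_fun hψ (heckeAlgebra.U hq hqN hqS)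
    have h1 : CuspForm.heckeULin 2 hqN g = ψ (heckeAlgebra.U hq hqN (Set.notMem_empty _)) • g :=
      hgt (heckeAlgebra.U hq hqN (Set.notMem_empty _))
    rw [Quick.heckeULin_eigenform hg hq hqN] at h1
    rw [← h]
    exact smul_left_injective ℂ (Quick.eigenform_ne_zero hg) h1

/-- A simultaneous eigenvector of a part of the Hecke operators gives a normalised eigenform. -/
theorem exists_eigenform_of_partialEigen (v : CuspForm (Gamma0 N) 2) (hv : v ≠ 0) (S : Set ℕ)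
    (lam : ℕ → ℂ)
    (hT : ∀ (ℓ : ℕ) (hℓ : ℓ.Prime) (hℓN : ¬ ℓ ∣ N), ℓ ∉ S →
      CuspForm.heckeTLin 2 hℓ hℓN v = lam ℓ • v)
    (hU : ∀ (q : ℕ), q.Prime → ∀ (hqN : q ∣ N), q ∉ S →
      CuspForm.heckeULin 2 hqN v = lam q • v) :
    ∃ g : CuspForm (Gamma0 N) 2, g.IsNormalizedEigenform ∧
      ∀ ℓ : ℕ, ℓ.Prime → ℓ ∉ S → qCoeff g ℓ = lam ℓ := by
  have hall : ∀ t : heckeAlgebra N 2 S, ∃ c : ℂ, Quick.heckeAct N S t v = c • v := by
    rintro ⟨t, ht⟩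
    show ∃ c : ℂ, t v = c • v
    induction ht using Algebra.adjoin_induction with
    | mem x hx =>
      rcases hx with ⟨ℓ, hℓ, hℓN, hℓS, rfl⟩ | ⟨q, hqN, hq, hqS, rfl⟩
      · exact ⟨_, hT ℓ hℓ hℓN hℓS⟩
      · exact ⟨_, hU q hq hqN hqS⟩
    | algebraMap r => exact ⟨r, by simp [Int.cast_smul_eq_zsmul]⟩
    | add x y _ _ hx hy =>
      obtain ⟨a, ha⟩ := hx
      obtain ⟨b, hb⟩ := hy
      exact ⟨a + b, by rw [LinearMap.add_apply, ha, hb, add_smul]⟩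
    | mul x y _ _ hx hy =>
      obtain ⟨a, ha⟩ := hx
      obtain ⟨b, hb⟩ := hy
      exact ⟨b * a, by rw [Module.End.mul_apply, hb, map_smul, ha, smul_smul]⟩
  choose c hc using hall
  have hu : ∀ {a b : ℂ}, a • v = b • v → a = b := fun h => smul_left_injective ℂ hv h
  let χ : heckeAlgebra N 2 S →+* ℂ :=
    { toFun := c
      map_one' := hu (by rw [← hc, map_one, Module.End.one_apply, one_smul])
      map_mul' := fun s t => hu (by
        rw [← hc, map_mul, Module.End.mul_apply, hc, map_smul, hc, smul_smul, mul_comm])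
      map_zero' := hu (by rw [← hc, map_zero, LinearMap.zero_apply, zero_smul])
      map_add' := fun s t => hu (by rw [← hc, map_add, LinearMap.add_apply, hc, hc, add_smul]) }
  obtain ⟨g, hg, h1, h2⟩ := exists_eigenform_of_partialChar χ
  refine ⟨g, hg, fun ℓ hℓ hℓS => ?_⟩
  by_cases hℓN : ℓ ∣ N
  · rw [h2 ℓ hℓ hℓN hℓS]
    exact hu ((hc _).symm.trans (hU ℓ hℓ hℓN hℓS))
  · rw [h1 ℓ hℓ hℓN hℓS]
    exact hu ((hc _).symm.trans (hT ℓ hℓ hℓN hℓS))

variable {f : CuspForm (Gamma0 N) 2}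

omit [NeZero N] in
theorem occursAt_trans {M K : ℕ} {g : CuspForm (Gamma0 M) 2} (hMN : M ∣ N)
    (hgf : ∀ ℓ : ℕ, ℓ.Prime → ¬ ℓ ∣ N → qCoeff g ℓ = qCoeff f ℓ)
    (h : GoodEigensystemOccursAt g K) : GoodEigensystemOccursAt f K := by
  obtain ⟨u, hu, hug⟩ := h
  exact ⟨u, hu, fun ℓ hℓ hℓN => (hug ℓ hℓ fun h => hℓN (h.trans hMN)).trans (hgf ℓ hℓ hℓN)⟩

/-- Every normalised eigenform has the eigenvalues of a newform of level dividing its own. -/
theorem exists_newform (hf : f.IsNormalizedEigenform) :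
    ∃ M : ℕ, M ∣ N ∧ ∃ g : CuspForm (Gamma0 M) 2, g.IsNewform ∧
      ∀ ℓ : ℕ, ℓ.Prime → ¬ ℓ ∣ N → qCoeff g ℓ = qCoeff f ℓ := by
  classical
  have hex : ∃ M, M ∣ N ∧ GoodEigensystemOccursAt f M := ⟨N, dvd_rfl, .refl hf⟩
  obtain ⟨hM, g, hg, hgf⟩ := Nat.find_spec hex
  refine ⟨Nat.find hex, hM, g, ⟨hg, fun K hK hKne hocc => ?_⟩, hgf⟩
  have hM0 : Nat.find hex ≠ 0 := fun h => NeZero.ne N (Nat.eq_zero_of_zero_dvd (h ▸ hM))
  exact Nat.find_min hex (lt_of_le_of_ne (Nat.le_of_dvd (Nat.pos_of_ne_zero hM0) hK) hKne)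
    ⟨hK.trans hM, occursAt_trans hM hgf hocc⟩

/-- Every eigensystem away from `S` has the eigenvalues of a newform. -/
theorem exists_newform_of_char {S : Set ℕ} (χ : heckeAlgebra N 2 S →+* ℂ) :
    ∃ M : ℕ, M ∣ N ∧ ∃ g : CuspForm (Gamma0 M) 2, g.IsNewform ∧
      ∀ (ℓ : ℕ) (hℓ : ℓ.Prime) (hℓN : ¬ ℓ ∣ N) (hℓS : ℓ ∉ S),
        qCoeff g ℓ = χ (heckeAlgebra.T hℓ hℓN hℓS) := by
  obtain ⟨f, hf, hfT, -⟩ := exists_eigenform_of_partialChar χ
  obtain ⟨M, hM, g, hg, hgf⟩ := exists_newform hf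
  exact ⟨M, hM, g, hg, fun ℓ hℓ hℓN hℓS => (hgf ℓ hℓ hℓN).trans (hfT ℓ hℓ hℓN hℓS)⟩

/-- A nonzero eigenvector of the good Hecke operators realises the eigensystem at its level. -/
theorem occursAt_of_eigen {M : ℕ} [NeZero M] (hMN : M ∣ N) (v : CuspForm (Gamma0 M) 2)
    (hv : v ≠ 0)
    (h : ∀ (ℓ : ℕ) (hℓ : ℓ.Prime) (hℓM : ¬ ℓ ∣ M), ¬ ℓ ∣ N →
      CuspForm.heckeTLin 2 hℓ hℓM v = qCoeff f ℓ • v) :
    GoodEigensystemOccursAt f M := by
  obtain ⟨g, hg, hgl⟩ := exists_eigenform_of_partialEigen v hv {ℓ | ℓ ∣ N} (fun ℓ => qCoeff f ℓ)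
    (fun ℓ hℓ hℓM hℓN => h ℓ hℓ hℓM hℓN) (fun q _ hqM hqN => absurd (hqM.trans hMN) hqN)
  exact ⟨g, hg, fun ℓ hℓ hℓN => hgl ℓ hℓ hℓN⟩

end FLTAgent.Newform
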