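import Fermat.Agent.Newform.Occurs
import Fermat.Agent.LevelRaise.Degeneracy
import Fermat.Agent.Periods.Transfer

/-!
# Coefficients of newforms at the primes of the level
-/

set_option autoImplicit false

noncomputable section

namespace FLTAgent.Newform

open UpperHalfPlane CongruenceSubgroup ModularFormClass CuspForm LevelRaise
open scoped MatrixGroups ModularForm

theorem det_matSL_ne_zero (s : SL(2, ℤ)) : (matSL s).det ≠ 0 := by
  rw [show (matSL s).det = 1 from s.det_coe]; exact one_ne_zero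

theorem matGL_tRepZ {ℓ : ℕ} [NeZero ℓ] (i : Option (ZMod ℓ)) :
    matGL (tRepZ ℓ i) = Periods.tRep ℓ i := by
  refine Units.ext ?_
  rw [val_matGL (by rw [det_tRepZ]; exact_mod_cast NeZero.ne ℓ)]
  rcases i with _ | j
  · rw [Periods.tRep, ModularForm.val_heckeDiagMatrix (NeZero.ne ℓ)]
    ext r s
    fin_cases r <;> fin_cases s <;> simp [tRepZ]
  · rw [Periods.tRep, ModularForm.val_heckeMatrix (NeZero.ne ℓ)]
    ext r s
    fin_cases r <;> fin_cases s <;> simp [tRepZ]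

variable {N q : ℕ} [NeZero N] [NeZero q] (D : WData N q)

theorem det_mat_ne_zero : D.mat.det ≠ 0 := D.det_pos.ne'

theorem isCF_slash_mat (f : CuspForm (Gamma0 (N * q)) 2) :
    IsCF (N * q) 2 (⇑f ∣[(2 : ℤ)] matGL D.mat) := by
  refine ⟨(isCF_cuspForm f).holo.slash 2 _, fun γ hγ => ?_,
    fun c hc => isZeroAt_slash_matGL f (det_mat_ne_zero D) hc⟩
  have e := congrArg matGL (D.conjLE.spec ⟨γ, hγ⟩)
  rw [matGL_mul (det_mat_ne_zero D) (det_matSL_ne_zero _),
    matGL_mul (det_matSL_ne_zero _) (det_mat_ne_zero D), matGL_matSL, matGL_matSL] at e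
  rw [← SlashAction.slash_mul, e, SlashAction.slash_mul,
    (isCF_cuspForm f).inv _ (D.conjLE.hom ⟨γ, hγ⟩).2]

/-- The Atkin–Lehner operator at `q`. -/
def wLin : CuspForm (Gamma0 (N * q)) 2 →ₗ[ℂ] CuspForm (Gamma0 (N * q)) 2 where
  toFun f := (isCF_slash_mat D f).toCF
  map_add' f g := DFunLike.coe_injective <| by
    show ⇑(f + g) ∣[(2 : ℤ)] matGL D.mat = _
    rw [CuspForm.coe_add, SlashAction.add_slash]
    rfl
  map_smul' a f := DFunLike.coe_injective <| by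
    show ⇑(a • f) ∣[(2 : ℤ)] matGL D.mat = _
    rw [CuspForm.IsGLPos.coe_smul, ModularForm.smul_slash, UpperHalfPlane.σ,
      if_pos (det_matGL_pos D.det_pos)]
    rfl

@[simp] theorem coe_wLin (f : CuspForm (Gamma0 (N * q)) 2) :
    ⇑(wLin D f) = ⇑f ∣[(2 : ℤ)] matGL D.mat := rfl

theorem wLin_wLin (f : CuspForm (Gamma0 (N * q)) 2) : wLin D (wLin D f) = f := by
  refine DFunLike.coe_injective ?_
  have hq : (q : ℤ) ≠ 0 := by exact_mod_cast NeZero.ne q
  have hd : ((q : ℤ) • (1 : Matrix (Fin 2) (Fin 2) ℤ)).det ≠ 0 := by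
    rw [Matrix.det_smul, Matrix.det_one, mul_one]; exact pow_ne_zero _ hq
  rw [coe_wLin, coe_wLin, ← SlashAction.slash_mul, ← matGL_mul (det_mat_ne_zero D) (det_mat_ne_zero D),
    D.mat_mul_mat, ← Matrix.one_mul (matSL (D.sq : SL(2, ℤ))), ← Matrix.smul_mul,
    matGL_mul hd (det_matSL_ne_zero _), SlashAction.slash_mul, slash_matGL_scalar _ hq, matGL_matSL,
    (isCF_cuspForm f).inv _ D.sq.2]

/-- The representatives of `T ℓ` are permuted by conjugation with the involution. -/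
theorem exists_perm_mat_tRepZ {ℓ : ℕ} [NeZero ℓ] (hℓ : ℓ.Prime) (hℓN : ¬ ℓ ∣ N * q) :
    ∃ (e : Equiv.Perm (Option (ZMod ℓ))) (ε : Option (ZMod ℓ) → Gamma0 (N * q)),
      ∀ i, D.mat * tRepZ ℓ i = matSL (ε i : SL(2, ℤ)) * tRepZ ℓ (e i) * D.mat := by
  have hY : ∀ i : Option (ZMod ℓ), ∃ (e : Option (ZMod ℓ)) (ε : Gamma0 (N * q)),
      D.mat * tRepZ ℓ i = matSL (ε : SL(2, ℤ)) * tRepZ ℓ e * D.mat := by
    intro i
    have hform : tRepZ ℓ i = !![tRepZ ℓ i 0 0, tRepZ ℓ i 0 1; (N : ℤ) * q * 0, tRepZ ℓ i 1 1] := by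
      ext r s; fin_cases r <;> fin_cases s <;> simp [tRepZ_apply_one_zero]
    obtain ⟨e, ε, he⟩ := exists_eq_mul_tRepZ hℓ hℓN
      (D.conjMat (tRepZ ℓ i 0 0) (tRepZ ℓ i 0 1) 0 (tRepZ ℓ i 1 1))
      (by
        rw [D.det_conjMat, mul_zero, mul_zero, sub_zero]
        have := det_tRepZ ℓ i
        rw [Matrix.det_fin_two, tRepZ_apply_one_zero, mul_zero, sub_zero] at this
        exact this)
      (D.conjMat_one_zero _ _ _ _)
    refine ⟨e, ε, ?_⟩
    conv_lhs => rw [hform, D.mat_mul_eq_conjMat, he]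
  choose e ε he using hY
  have hinj : Function.Injective e := by
    intro i j hij
    obtain ⟨d, hd⟩ := D.hom_surjective (ε i * (ε j)⁻¹)
    refine distinctFam_tRepZ ℓ hℓ.one_lt i j (d : SL(2, ℤ)) ?_
    have hadj := congrArg (D.mat.adjugate * ·) (show D.mat * tRepZ ℓ i
        = D.mat * (matSL (d : SL(2, ℤ)) * tRepZ ℓ j) by
      rw [← Matrix.mul_assoc, D.conjLE.spec, hd, Matrix.mul_assoc, he, he, hij, Subgroup.coe_mul,
        Subgroup.coe_inv, matSL_mul]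
      simp only [Matrix.mul_assoc, matSL_inv_mul_cancel])
    simp only [← Matrix.mul_assoc, Matrix.adjugate_mul, Matrix.smul_mul, Matrix.one_mul] at hadj
    exact smul_right_injective _ D.det_pos.ne' hadj
  exact ⟨Equiv.ofBijective e (Finite.injective_iff_bijective.mp hinj), ε, he⟩

/-- `T ℓ` commutes with the Atkin–Lehner operator. -/
theorem heckeTLin_wLin {ℓ : ℕ} (hℓ : ℓ.Prime) (hℓN : ¬ ℓ ∣ N * q)
    (f : CuspForm (Gamma0 (N * q)) 2) :
    CuspForm.heckeTLin 2 hℓ hℓN (wLin D f) = wLin D (CuspForm.heckeTLin 2 hℓ hℓN f) := by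
  have : NeZero ℓ := ⟨hℓ.ne_zero⟩
  have hd : ∀ i : Option (ZMod ℓ), (tRepZ ℓ i).det ≠ 0 := fun i => by
    rw [det_tRepZ]; exact_mod_cast hℓ.ne_zero
  obtain ⟨e, ε, he⟩ := exists_perm_mat_tRepZ D hℓ hℓN
  refine DFunLike.coe_injective ?_
  rw [Periods.coe_heckeTLin_eq_sum _ hℓ hℓN, coe_wLin, coe_wLin,
    Periods.coe_heckeTLin_eq_sum _ hℓ hℓN, SlashAction.sum_slash]
  refine Fintype.sum_equiv e _ _ fun i => ?_
  have h2 : (matSL (ε i : SL(2, ℤ)) * tRepZ ℓ (e i)).det ≠ 0 := by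
    rw [Matrix.det_mul]; exact mul_ne_zero (det_matSL_ne_zero _) (hd _)
  rw [← matGL_tRepZ, ← matGL_tRepZ, ← SlashAction.slash_mul, ← SlashAction.slash_mul,
    ← matGL_mul (det_mat_ne_zero D) (hd i), ← matGL_mul (hd _) (det_mat_ne_zero D), he,
    matGL_mul h2 (det_mat_ne_zero D), matGL_mul (det_matSL_ne_zero _) (hd _),
    matGL_mul (hd _) (det_mat_ne_zero D), matGL_matSL, mul_assoc, SlashAction.slash_mul,
    (isCF_cuspForm f).inv _ (ε i).2]

theorem slash_trace_eq (f : CuspForm (Gamma0 (N * q)) 2) :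
    ∑ i, (⇑(wLin D f)) ∣[(2 : ℤ)] ((D.rep i : SL(2, ℤ)) : GL (Fin 2) ℝ)
      = ⇑(wLin D f + CuspForm.heckeULin 2 (dvd_mul_left q N) f) := by
  rw [Fintype.sum_option, CuspForm.coe_add, Periods.coe_heckeULin_eq_sum]
  congr 1
  · show ⇑(wLin D f) ∣[(2 : ℤ)] ((1 : SL(2, ℤ)) : GL (Fin 2) ℝ) = _
    simp
  · refine Finset.sum_congr rfl fun j _ => ?_
    rw [coe_wLin, ← matGL_matSL, ← SlashAction.slash_mul,
      ← matGL_mul (det_mat_ne_zero D) (det_matSL_ne_zero _), D.mat_mul_rep]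
    show ⇑f ∣[(2 : ℤ)] matGL (tRepZ q (some j)) = _
    rw [matGL_tRepZ]
    rfl

omit [NeZero N] in
/-- A sum of translates by representatives is invariant. -/
theorem sum_slash_rep (F : ℍ → ℂ)
    (hF : ∀ δ ∈ Gamma0 (N * q), F ∣[(2 : ℤ)] ((δ : SL(2, ℤ)) : GL (Fin 2) ℝ) = F)
    (γ : Gamma0 N) :
    (∑ i, F ∣[(2 : ℤ)] ((D.rep i : SL(2, ℤ)) : GL (Fin 2) ℝ))
        ∣[(2 : ℤ)] ((γ : SL(2, ℤ)) : GL (Fin 2) ℝ)
      = ∑ i, F ∣[(2 : ℤ)] ((D.rep i : SL(2, ℤ)) : GL (Fin 2) ℝ) := by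
  rw [SlashAction.sum_slash]
  have h : ∀ i, ∃ j, (((D.rep i : SL(2, ℤ)) * γ) * (D.rep j : SL(2, ℤ))⁻¹) ∈ Gamma0 (N * q) :=
    fun i => D.rep_surjective (D.rep i * γ)
  choose σ hσ using h
  have hinj : Function.Injective σ := by
    intro i j hij
    refine D.rep_injective i j ?_
    have h1 := (Gamma0 (N * q)).mul_mem (hσ i) ((Gamma0 (N * q)).inv_mem (hσ j))
    rw [hij] at h1
    convert h1 using 1
    group
  refine Fintype.sum_equiv (Equiv.ofBijective σ (Finite.injective_iff_bijective.mp hinj)) _ _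
    fun i => ?_
  rw [← SlashAction.slash_mul, Equiv.ofBijective_apply, ← map_mul, ← map_mul,
    show (D.rep i : SL(2, ℤ)) * γ
      = ((D.rep i : SL(2, ℤ)) * γ * (D.rep (σ i) : SL(2, ℤ))⁻¹) * (D.rep (σ i) : SL(2, ℤ)) by group,
    map_mul, map_mul, SlashAction.slash_mul, hF _ (hσ i)]

/-- The trace to level `N` of `W f`. -/
theorem isCF_trace (f : CuspForm (Gamma0 (N * q)) 2) :
    IsCF N 2 ⇑(wLin D f + CuspForm.heckeULin 2 (dvd_mul_left q N) f) := by
  refine ⟨(isCF_cuspForm _).holo, fun γ hγ => ?_, fun c hc => (isCF_cuspForm _).zero c hc⟩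
  rw [← slash_trace_eq]
  exact sum_slash_rep D _ (isCF_cuspForm (wLin D f)).inv ⟨γ, hγ⟩

variable {f : CuspForm (Gamma0 (N * q)) 2}

include D in
/-- If the eigensystem does not occur at level `N`, then `W f = -a_q f`. -/
theorem wLin_eq_neg_smul (hf : f.IsNormalizedEigenform) (hnot : ¬ GoodEigensystemOccursAt f N) :
    wLin D f = -(qCoeff f q) • f := by
  have hU := Quick.heckeULin_eigenform hf D.prime (dvd_mul_left q N)
  have hC := isCF_trace D f
  have hup : levelUp (dvd_mul_right N q) hC.toCF = wLin D f + qCoeff f q • f := by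
    refine DFunLike.coe_injective ?_
    rw [coe_levelUp, IsCF.coe_toCF, hU]
  have hzero : hC.toCF = 0 := by
    by_contra hne
    refine hnot (occursAt_of_eigen (dvd_mul_right N q) hC.toCF hne fun ℓ hℓ hℓN hℓM => ?_)
    refine levelUp_injective (dvd_mul_right N q) ?_
    rw [← heckeTLin_levelUp (dvd_mul_right N q) hC.toCF hℓ hℓM, map_smul, hup, map_add, map_smul,
      heckeTLin_wLin, Quick.heckeTLin_eigenform hf hℓ hℓM, map_smul, smul_add, smul_comm]
  rw [hzero, map_zero] at hup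
  exact (eq_neg_of_add_eq_zero_left hup.symm).trans (neg_smul (qCoeff f q) f).symm

include D in
/-- At a prime exactly dividing the level where the form is new, `a_q ^ 2 = 1`. -/
theorem sq_qCoeff_eq_one_aux (hf : f.IsNormalizedEigenform)
    (hnot : ¬ GoodEigensystemOccursAt f N) : qCoeff f q ^ 2 = 1 := by
  have hW := wLin_eq_neg_smul D hf hnot
  have h : (qCoeff f q ^ 2) • f = (1 : ℂ) • f := by
    conv_rhs => rw [one_smul, ← wLin_wLin D f, hW, map_smul, hW, smul_smul, neg_mul_neg, ← pow_two]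
  exact smul_left_injective ℂ (Quick.eigenform_ne_zero hf) h

omit [NeZero N] [NeZero q] in
open P2MW.S_ModularForm_heckeT_slash_eq_self_of_mem_Gamma0.ModularForm.HeckeSlashInvariance in
theorem isCF_heckeU [NeZero N] [NeZero q] (hqN : q ∣ N) (g : CuspForm (Gamma0 (N * q)) 2) :
    IsCF N 2 ⇑(CuspForm.heckeULin 2 (dvd_mul_left q N) g) := by
  refine ⟨(isCF_cuspForm _).holo, fun γ hγ => ?_, fun c hc => (isCF_cuspForm _).zero c hc⟩
  have hcN : (N : ℤ) ∣ γ 1 0 := (ZMod.intCast_zmod_eq_zero_iff_dvd _ _).mp (Gamma0_mem.mp hγ)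
  have hc : (q : ℤ) ∣ γ 1 0 := (Int.natCast_dvd_natCast.mpr hqN).trans hcN
  choose δ hδ hmul using fun x => heckeMatrix_mul_of_dvd γ hc x
  rw [Periods.coe_heckeULin_eq_sum, SlashAction.sum_slash]
  refine Fintype.sum_equiv (affinePerm γ ((ZMod.intCast_zmod_eq_zero_iff_dvd _ _).mpr hc)) _ _
    fun x => ?_
  rw [← SlashAction.slash_mul]
  refine (congrArg (fun b => ⇑g ∣[(2 : ℤ)] b) (hmul x)).trans ?_
  rw [SlashAction.slash_mul]
  have hmem : δ x ∈ Gamma0 (N * q) := by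
    refine mem_gamma0_iff.mpr ?_
    show _ ∣ (δ x) 1 0
    rw [hδ x]
    push_cast
    rw [mul_comm (N : ℤ)]
    exact mul_dvd_mul_left _ hcN
  exact congrArg (· ∣[(2 : ℤ)] _) ((isCF_cuspForm g).inv _ hmem)

/-- If `q ^ 2` divides the level and `a_q ≠ 0`, the eigenform has level divided by `q`. -/
theorem occursAt_of_qCoeff_ne_zero_aux (hq : q.Prime) (hqN : q ∣ N)
    (hf : f.IsNormalizedEigenform) (hne : qCoeff f q ≠ 0) : GoodEigensystemOccursAt f N := by
  obtain ⟨v, hv⟩ : ∃ v : CuspForm (Gamma0 N) 2, ⇑v = ⇑f := by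
    refine ⟨(qCoeff f q)⁻¹ • (isCF_heckeU hqN f).toCF, ?_⟩
    show (qCoeff f q)⁻¹ • ⇑(CuspForm.heckeULin 2 (dvd_mul_left q N) f) = ⇑f
    rw [Quick.heckeULin_eigenform hf hq, CuspForm.IsGLPos.coe_smul, inv_smul_smul₀ hne]
  have hup : levelUp (dvd_mul_right N q) v = f := DFunLike.coe_injective hv
  refine occursAt_of_eigen (dvd_mul_right N q) v (fun h => Quick.eigenform_ne_zero hf
    (by rw [← hup, h, map_zero])) fun ℓ hℓ hℓN hℓM => ?_
  refine levelUp_injective (dvd_mul_right N q) ?_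
  rw [← heckeTLin_levelUp (dvd_mul_right N q) v hℓ hℓM, map_smul, hup,
    Quick.heckeTLin_eigenform hf hℓ hℓM]

variable {M : ℕ} [NeZero M] {g : CuspForm (Gamma0 M) 2}

omit [NeZero N] [NeZero q] in
/-- At a prime exactly dividing the level where an eigenform is new, `a_q ^ 2 = 1`. -/
theorem isNewAt_of_isNewformAt (hq : q.Prime) (hg : g.IsNewformAt q) (hq2 : ¬ q ^ 2 ∣ M) :
    g.IsNewAt q := by
  obtain ⟨hf, hqM, hnot⟩ := hg
  obtain ⟨K, rfl⟩ := exists_eq_mul_left_of_dvd hqM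
  rw [Nat.mul_div_cancel _ hq.pos] at hnot
  have : NeZero K := ⟨fun h => NeZero.ne (K * q) (by rw [h, zero_mul])⟩
  have : NeZero q := ⟨hq.ne_zero⟩
  have hqK : ¬ q ∣ K := fun h => hq2 (by rw [pow_two]; exact mul_dvd_mul_right h q)
  exact sq_qCoeff_eq_one_aux (exists_wData hq hqK).some hf hnot

omit [NeZero N] [NeZero q] in
/-- At a prime whose square divides the level where an eigenform is new, `a_q = 0`. -/
theorem qCoeff_eq_zero_of_isNewformAt (hq : q.Prime) (hg : g.IsNewformAt q) (hq2 : q ^ 2 ∣ M) :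
    qCoeff g q = 0 := by
  obtain ⟨hf, hqM, hnot⟩ := hg
  obtain ⟨K, rfl⟩ := exists_eq_mul_left_of_dvd hqM
  rw [Nat.mul_div_cancel _ hq.pos] at hnot
  have : NeZero K := ⟨fun h => NeZero.ne (K * q) (by rw [h, zero_mul])⟩
  have : NeZero q := ⟨hq.ne_zero⟩
  have hqK : q ∣ K := Nat.dvd_of_mul_dvd_mul_right hq.pos (by rwa [← pow_two])
  exact not_not.mp fun h => hnot (occursAt_of_qCoeff_ne_zero_aux hq hqK hf h)

omit [NeZero N] [NeZero q] in
/-- A prime exactly dividing the level with `a_q ^ 2 ≠ 1` can be removed from the level. -/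
theorem occursAt_div_of_sq_ne_one (hq : q.Prime) (hg : g.IsNormalizedEigenform) (hqM : q ∣ M)
    (hq2 : ¬ q ^ 2 ∣ M) (hne : qCoeff g q ^ 2 ≠ 1) : GoodEigensystemOccursAt g (M / q) :=
  not_not.mp fun h => hne (isNewAt_of_isNewformAt hq ⟨hg, hqM, h⟩ hq2)

/-- The bad prime coefficients of newforms. -/
theorem newformBadPrimeCoeff (N : ℕ) [NeZero N] : NewformBadPrimeCoeff N :=
  fun _ hf _ hq hqN =>
    ⟨fun h => isNewAt_of_isNewformAt hq (hf.isNewformAt hq hqN (NeZero.ne N)) h,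
      fun h => qCoeff_eq_zero_of_isNewformAt hq (hf.isNewformAt hq hqN (NeZero.ne N)) h⟩

theorem qCoeff_eq_one_or_neg_one {N : ℕ} [NeZero N] {f : CuspForm (Gamma0 N) 2} (hf : f.IsNewform)
    {q : ℕ} (hq : q.Prime) (hqN : q ∣ N) (hq2 : ¬ q ^ 2 ∣ N) :
    qCoeff f q = 1 ∨ qCoeff f q = -1 :=
  sq_eq_one_iff.mp ((newformBadPrimeCoeff N f hf q hq hqN).1 hq2)

end FLTAgent.Newform
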