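import Fermat.Agent.Newform.Occurs
import Mathlib.NumberTheory.DirichletCharacter.Basic
import Mathlib.Analysis.SpecialFunctions.Complex.CircleAddChar

/-!
# Twists of weight two forms by Dirichlet characters
-/

set_option autoImplicit false

noncomputable section

namespace FLTAgent.Newform

open UpperHalfPlane CongruenceSubgroup ModularFormClass LevelRaise
open scoped MatrixGroups ModularForm Manifold Real

variable {Q : ℕ} [NeZero Q]

/-- `F` is a cusp form of weight two on `Γ₀(N)` with character `ψ`. -/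
structure IsCFChar (N : ℕ) {C : ℕ} (ψ : DirichletCharacter ℂ C) (F : ℍ → ℂ) : Prop where
  holo : MDiff F
  inv : ∀ γ ∈ Gamma0 N, F ∣[(2 : ℤ)] (γ : GL (Fin 2) ℝ) = ψ ((γ 1 1 : ℤ) : ZMod C) • F
  zero : ∀ c : OnePoint ℝ, IsCusp c 𝒮ℒ → c.IsZeroAt F (2 : ℤ)

theorem IsCF.isCFChar {N C : ℕ} [NeZero C] {F : ℍ → ℂ} (h : IsCF N 2 F) (hC : C ∣ N) :
    IsCFChar N (1 : DirichletCharacter ℂ C) F := by
  refine ⟨h.holo, fun γ hγ => ?_, h.zero⟩
  rw [h.inv γ hγ, MulChar.one_apply, one_smul]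
  have hdet := LevelRaise.det_matSL γ
  have hc : ((γ 1 0 : ℤ) : ZMod C) = 0 :=
    (ZMod.intCast_zmod_eq_zero_iff_dvd _ _).mpr
      ((Int.natCast_dvd_natCast.mpr hC).trans (mem_gamma0_iff.mp hγ))
  refine IsUnit.of_mul_eq_one ((γ 0 0 : ℤ) : ZMod C) ?_
  have := congrArg (fun z : ℤ => (z : ZMod C)) hdet
  push_cast at this
  rw [show ((matSL γ 1 0 : ℤ) : ZMod C) = 0 from hc] at this
  show ((matSL γ 1 1 : ℤ) : ZMod C) * ((matSL γ 0 0 : ℤ) : ZMod C) = 1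
  linear_combination this

theorem isCF_of_isCFChar_one {N C : ℕ} {F : ℍ → ℂ} {ψ : DirichletCharacter ℂ C}
    (h : IsCFChar N ψ F) (h1 : ∀ γ ∈ Gamma0 N, ψ ((γ 1 1 : ℤ) : ZMod C) = 1) : IsCF N 2 F :=
  ⟨h.holo, fun γ hγ => by rw [h.inv γ hγ, h1 γ hγ, one_smul], h.zero⟩

theorem isZeroAt_slash_of_zero {F : ℍ → ℂ} {k : ℤ}
    (hF : ∀ c : OnePoint ℝ, IsCusp c 𝒮ℒ → c.IsZeroAt F k) {A : Matrix (Fin 2) (Fin 2) ℤ}
    (hA : A.det ≠ 0) {c : OnePoint ℝ} (hc : IsCusp c 𝒮ℒ) :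
    c.IsZeroAt (F ∣[k] matGL A) k := by
  have hdetQ : (A.map (Int.castRingHom ℚ)).det ≠ 0 := by
    rw [← RingHom.mapMatrix_apply, ← RingHom.map_det, eq_intCast]; exact_mod_cast hA
  have hmap : matGL A = Matrix.GeneralLinearGroup.map (Rat.castHom ℝ)
      (Matrix.GeneralLinearGroup.mkOfDetNeZero (A.map (Int.castRingHom ℚ)) hdetQ) := by
    refine Units.ext ?_
    rw [val_matGL hA]
    ext i j
    simp [Matrix.GeneralLinearGroup.mkOfDetNeZero]
  rw [hmap]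
  exact OnePoint.IsZeroAt.smul_iff.mp (hF _ (by
    rw [isCusp_SL2Z_iff] at hc ⊢
    obtain ⟨c, rfl⟩ := hc
    exact ⟨_, by rw [← Rat.coe_castHom, OnePoint.map_smul]⟩))

/-- `!![Q, u; 0, Q]`, acting as translation by `u / Q`. -/
def shiftMat (u : ZMod Q) : Matrix (Fin 2) (Fin 2) ℤ := !![(Q : ℤ), (u.val : ℤ); 0, (Q : ℤ)]

theorem det_shiftMat (u : ZMod Q) : (shiftMat u).det = (Q : ℤ) * Q := by
  simp [shiftMat, Matrix.det_fin_two_of]

theorem det_shiftMat_pos (u : ZMod Q) : 0 < (shiftMat u).det := by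
  rw [det_shiftMat]
  exact mul_pos (by exact_mod_cast Nat.pos_of_neZero Q) (by exact_mod_cast Nat.pos_of_neZero Q)

theorem coe_shiftMat_smul (u : ZMod Q) (τ : ℍ) :
    ((matGL (shiftMat u) • τ : ℍ) : ℂ) = (τ : ℂ) + (u.val : ℂ) / Q := by
  have hQ : (Q : ℂ) ≠ 0 := NeZero.ne _
  rw [UpperHalfPlane.coe_smul_of_det_pos (det_matGL_pos (det_shiftMat_pos u))]
  rw [UpperHalfPlane.num, UpperHalfPlane.denom, val_matGL (det_shiftMat_pos u).ne']
  simp [shiftMat, -ZMod.natCast_val]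
  field_simp

theorem slash_shiftMat (F : ℍ → ℂ) (u : ZMod Q) (τ : ℍ) :
    (F ∣[(2 : ℤ)] matGL (shiftMat u)) τ = F (matGL (shiftMat u) • τ) := by
  have hpos := det_matGL_pos (det_shiftMat_pos u)
  have hQ : (Q : ℂ) ≠ 0 := NeZero.ne _
  rw [ModularForm.slash_apply, UpperHalfPlane.σ, if_pos hpos, abs_of_pos hpos,
    det_matGL (det_shiftMat_pos u).ne', det_shiftMat, UpperHalfPlane.denom,
    val_matGL (det_shiftMat_pos u).ne']
  simp [shiftMat]
  field_simp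

/-- The weights of the translates in the twist by `χ`. -/
def twistWeight (χ : DirichletCharacter ℂ Q) (u : ZMod Q) : ℂ :=
  (Q : ℂ)⁻¹ * ∑ r : ZMod Q, χ r * ZMod.stdAddChar (-(r * u))

theorem twistWeight_unit_mul (χ : DirichletCharacter ℂ Q) {s : ZMod Q} (hs : IsUnit s) (u : ZMod Q) :
    χ s * twistWeight χ (s * u) = twistWeight χ u := by
  obtain ⟨s, rfl⟩ := hs
  rw [twistWeight, twistWeight, mul_left_comm, Finset.mul_sum]
  congr 1
  refine Fintype.sum_equiv s.mulLeft _ _ fun r => ?_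
  simp only [Units.mulLeft_apply, map_mul]
  rw [show r * ((s : ZMod Q) * u) = (s : ZMod Q) * r * u by ring]
  ring

theorem sum_twistWeight_mul (χ : DirichletCharacter ℂ Q) (m : ℕ) :
    ∑ u : ZMod Q, twistWeight χ u * ZMod.stdAddChar (u * (m : ZMod Q)) = χ (m : ZMod Q) := by
  classical
  have hQ : (Q : ℂ) ≠ 0 := NeZero.ne _
  have h : ∀ r : ZMod Q, ∑ u : ZMod Q,
      (ZMod.stdAddChar (-(r * u)) : ℂ) * ZMod.stdAddChar (u * (m : ZMod Q))
        = if (m : ZMod Q) - r = 0 then (Q : ℂ) else 0 := by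
    intro r
    have hs := AddChar.sum_mulShift ((m : ZMod Q) - r) (ZMod.isPrimitive_stdAddChar Q)
    rw [ZMod.card] at hs
    split_ifs with h0
    · rw [if_pos h0] at hs
      rw [← hs]
      refine Finset.sum_congr rfl fun u _ => ?_
      rw [← AddChar.map_add_eq_mul]
      ring_nf
    · rw [if_neg h0, Nat.cast_zero] at hs
      rw [← hs]
      refine Finset.sum_congr rfl fun u _ => ?_
      rw [← AddChar.map_add_eq_mul]
      ring_nf
  simp only [twistWeight, Finset.mul_sum, Finset.sum_mul]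
  rw [Finset.sum_comm]
  simp_rw [mul_assoc, ← Finset.mul_sum, h, sub_eq_zero, mul_ite, mul_zero]
  rw [Finset.sum_ite_eq Finset.univ (m : ZMod Q), if_pos (Finset.mem_univ _)]
  field_simp

/-- The twist of a function of period one by `χ`. -/
def twistFun (χ : DirichletCharacter ℂ Q) (F : ℍ → ℂ) : ℍ → ℂ :=
  ∑ u : ZMod Q, twistWeight χ u • (F ∣[(2 : ℤ)] matGL (shiftMat u))

theorem hasSum_twistFun (χ : DirichletCharacter ℂ Q) {F : ℍ → ℂ} {a : ℕ → ℂ}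
    (ha : ∀ τ : ℍ, HasSum (fun m : ℕ => a m • Function.Periodic.qParam 1 (τ : ℂ) ^ m) (F τ))
    (τ : ℍ) :
    HasSum (fun m : ℕ => (χ (m : ZMod Q) * a m) • Function.Periodic.qParam 1 (τ : ℂ) ^ m)
      (twistFun χ F τ) := by
  have hq : ∀ (u : ZMod Q) (m : ℕ),
      Function.Periodic.qParam 1 ((matGL (shiftMat u) • τ : ℍ) : ℂ) ^ m
        = ZMod.stdAddChar (u * (m : ZMod Q)) * Function.Periodic.qParam 1 (τ : ℂ) ^ m := by
    intro u m
    have e : u * (m : ZMod Q) = (((u.val * m : ℕ) : ℤ) : ZMod Q) := by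
      push_cast
      rw [ZMod.natCast_zmod_val]
    rw [coe_shiftMat_smul, e, ZMod.stdAddChar_coe]
    simp only [Function.Periodic.qParam, ← Complex.exp_nat_mul, ← Complex.exp_add]
    congr 1
    push_cast
    ring
  have hs := hasSum_sum (s := (Finset.univ : Finset (ZMod Q))) fun u _ =>
    (ha (matGL (shiftMat u) • τ)).mul_left (twistWeight χ u)
  simp only [twistFun, Finset.sum_apply, Pi.smul_apply, slash_shiftMat, smul_eq_mul]
  simp only [smul_eq_mul, hq] at hs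
  refine hs.congr_fun fun m => ?_
  rw [← sum_twistWeight_mul χ m, Finset.sum_mul, Finset.sum_mul]
  exact Finset.sum_congr rfl fun u _ => by ring

variable {N N' C : ℕ} {ψ : DirichletCharacter ℂ C} {F : ℍ → ℂ}

/-- The twist has level `N'` and character `ψ χ ^ 2`. -/
theorem twistFun_slash (χ : DirichletCharacter ℂ Q) (hF : IsCFChar N ψ F) (hN : N ∣ N')
    (hQ : Q ^ 2 ∣ N') (hC : C * Q ∣ N') {γ : SL(2, ℤ)} (hγ : γ ∈ Gamma0 N') :
    twistFun χ F ∣[(2 : ℤ)] (γ : GL (Fin 2) ℝ)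
      = (ψ ((γ 1 1 : ℤ) : ZMod C) * χ ((γ 1 1 : ℤ) : ZMod Q) ^ 2) • twistFun χ F := by
  have hQ0 : (Q : ℤ) ≠ 0 := NeZero.ne _
  have hc' : (N' : ℤ) ∣ matSL γ 1 0 := mem_gamma0_iff.mp hγ
  obtain ⟨c0, hc0⟩ : ((Q ^ 2 : ℕ) : ℤ) ∣ matSL γ 1 0 := (Int.natCast_dvd_natCast.mpr hQ).trans hc'
  push_cast at hc0
  have hCc : (C : ℤ) ∣ Q * c0 := by
    have h : ((C * Q : ℕ) : ℤ) ∣ matSL γ 1 0 := (Int.natCast_dvd_natCast.mpr hC).trans hc'
    push_cast at h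
    rw [hc0, show (Q : ℤ) ^ 2 * c0 = (Q * c0) * Q by ring] at h
    exact (mul_dvd_mul_iff_right hQ0).mp h
  have hdet := det_matSL γ
  have had : ((matSL γ 0 0 : ℤ) : ZMod Q) * ((matSL γ 1 1 : ℤ) : ZMod Q) = 1 := by
    have := congrArg (fun z : ℤ => (z : ZMod Q)) hdet
    push_cast at this
    rw [hc0] at this
    push_cast at this
    rw [ZMod.natCast_self] at this
    linear_combination this
  have hd : IsUnit ((matSL γ 1 1 : ℤ) : ZMod Q) :=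
    IsUnit.of_mul_eq_one _ ((mul_comm _ _).trans had)
  let σ : ZMod Q ≃ ZMod Q := (hd.pow 2).unit.mulLeft
  have hσ : ∀ u, σ u = ((matSL γ 1 1 : ℤ) : ZMod Q) ^ 2 * u := fun _ => rfl
  have hconj : ∀ u : ZMod Q, ∃ δ ∈ Gamma0 N',
      ψ ((δ 1 1 : ℤ) : ZMod C) = ψ ((γ 1 1 : ℤ) : ZMod C) ∧
        shiftMat u * matSL γ = matSL δ * shiftMat (σ u) := by
    intro u
    obtain ⟨e, he⟩ := (ZMod.intCast_zmod_eq_zero_iff_dvd
      ((u.val : ℤ) * matSL γ 1 1 - matSL γ 0 0 * ((σ u).val : ℤ)) Q).mp (by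
        push_cast
        rw [ZMod.natCast_zmod_val, ZMod.natCast_zmod_val, hσ]
        linear_combination -(((matSL γ 1 1 : ℤ) : ZMod Q) * u) * had)
    refine ⟨slMk (matSL γ 0 0 + (u.val : ℤ) * Q * c0)
      (matSL γ 0 1 + e - (u.val : ℤ) * (σ u).val * c0) (matSL γ 1 0)
      (matSL γ 1 1 - ((σ u).val : ℤ) * Q * c0) ?_, mem_gamma0_iff.mpr hc', ?_, ?_⟩
    · rw [hc0] at hdet ⊢
      linear_combination hdet + (Q : ℤ) * c0 * he
    · congr 1
      show ((matSL γ 1 1 - ((σ u).val : ℤ) * Q * c0 : ℤ) : ZMod C) = ((matSL γ 1 1 : ℤ) : ZMod C)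
      rw [Int.cast_sub, sub_eq_self, ZMod.intCast_zmod_eq_zero_iff_dvd, mul_assoc]
      exact dvd_mul_of_dvd_right hCc _
    · ext i j
      fin_cases i <;> fin_cases j <;>
        simp [shiftMat, Matrix.mul_apply, Fin.sum_univ_two, hc0, -ZMod.natCast_val]
      · ring
      · linear_combination he
      · ring
      · ring
  choose δ hδ hψδ hmul using hconj
  rw [twistFun, SlashAction.sum_slash, Finset.smul_sum]
  refine Fintype.sum_equiv σ _ _ fun u => ?_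
  have hdet' : ∀ s : SL(2, ℤ), (matSL s).det ≠ 0 := fun s => by
    rw [show (matSL s).det = 1 from s.det_coe]; exact one_ne_zero
  have hg1 : 0 < ((γ : GL (Fin 2) ℝ).det : ℝ) := by simp
  have hg2 : 0 < ((matGL (shiftMat (σ u))).det : ℝ) := det_matGL_pos (det_shiftMat_pos _)
  rw [ModularForm.smul_slash, UpperHalfPlane.σ, if_pos hg1, ← SlashAction.slash_mul,
    ← matGL_matSL γ, ← matGL_mul (det_shiftMat_pos u).ne' (hdet' _), hmul,
    matGL_mul (hdet' _) (det_shiftMat_pos _).ne', matGL_matSL, SlashAction.slash_mul,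
    hF.inv _ (LevelRaise.gamma0_le hN (hδ u)), hψδ, ModularForm.smul_slash, UpperHalfPlane.σ,
    if_pos hg2, ← twistWeight_unit_mul χ (hd.pow 2) u, hσ, map_pow]
  simp only [ContinuousAlgEquiv.refl_apply, smul_smul]
  congr 1
  show χ ((matSL γ 1 1 : ℤ) : ZMod Q) ^ 2 * _ * ψ ((matSL γ 1 1 : ℤ) : ZMod C) = _
  ring

/-- The twist of a cusp form with character, when the character becomes trivial. -/
theorem isCF_twistFun (χ : DirichletCharacter ℂ Q) (hF : IsCFChar N ψ F) (hN : N ∣ N')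
    (hQ : Q ^ 2 ∣ N') (hC : C * Q ∣ N')
    (h1 : ∀ γ ∈ Gamma0 N', ψ ((γ 1 1 : ℤ) : ZMod C) * χ ((γ 1 1 : ℤ) : ZMod Q) ^ 2 = 1) :
    IsCF N' 2 (twistFun χ F) := by
  refine ⟨?_, fun γ hγ => by rw [twistFun_slash χ hF hN hQ hC hγ, h1 γ hγ, one_smul],
    fun c hc => isZeroAt_finsetSum _ fun u _ => ?_⟩
  · rw [twistFun]
    exact Finset.sum_induction _ (fun G : ℍ → ℂ => MDiff G) (fun _ _ ha hb => ha.add hb)
      mdifferentiable_const fun u _ => (hF.holo.slash 2 _).const_smul _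
  · intro g hg
    rw [ModularForm.smul_slash]
    exact (isZeroAt_slash_of_zero hF.zero (det_shiftMat_pos u).ne' hc g hg).smul _

/-- A twist of an eigen-expansion gives a normalised eigenform. -/
theorem exists_eigenform_twist [NeZero N'] (χ : DirichletCharacter ℂ Q) (hF : IsCFChar N ψ F)
    (hN : N ∣ N') (hQ : Q ^ 2 ∣ N') (hC : C * Q ∣ N')
    (h1 : ∀ γ ∈ Gamma0 N', ψ ((γ 1 1 : ℤ) : ZMod C) * χ ((γ 1 1 : ℤ) : ZMod Q) ^ 2 = 1)
    {a : ℕ → ℂ}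
    (ha : ∀ τ : ℍ, HasSum (fun m : ℕ => a m • Function.Periodic.qParam 1 (τ : ℂ) ^ m) (F τ))
    (hne : ∃ m : ℕ, χ (m : ZMod Q) * a m ≠ 0) (lam : ℕ → ℂ)
    (hψχ : ∀ ℓ : ℕ, ℓ.Prime → ¬ ℓ ∣ N' → ψ (ℓ : ZMod C) * χ (ℓ : ZMod Q) ^ 2 = 1)
    (hrec : ∀ ℓ : ℕ, ℓ.Prime → ¬ ℓ ∣ N' → ∀ m : ℕ,
      a (m * ℓ) + (if ℓ ∣ m then ψ (ℓ : ZMod C) * ℓ * a (m / ℓ) else 0) = lam ℓ * a m) :
    ∃ g : CuspForm (Gamma0 N') 2, g.IsNormalizedEigenform ∧
      ∀ ℓ : ℕ, ℓ.Prime → ¬ ℓ ∣ N' → qCoeff g ℓ = χ (ℓ : ZMod Q) * lam ℓ := by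
  have hC' := isCF_twistFun χ hF hN hQ hC h1
  have hco : ∀ m, qCoeff hC'.toCF m = χ (m : ZMod Q) * a m :=
    qCoeff_eq_of_hasSum hC'.toCF (hasSum_twistFun χ ha)
  obtain ⟨m₀, hm₀⟩ := hne
  obtain ⟨g, hg, hgl⟩ := exists_eigenform_of_partialEigen hC'.toCF
    (fun h0 => hm₀ (by
      rw [← hco m₀, h0]
      exact (Quick.qCoeffLin N' 2 m₀).map_zero))
    {ℓ | ℓ ∣ N'} (fun ℓ => χ (ℓ : ZMod Q) * lam ℓ)
    (fun ℓ hℓ hℓN _ => Quick.eq_of_qCoeff_eq fun m => by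
      rw [Quick.qCoeff_heckeTLin, Quick.qCoeff_smul', hco, hco, hco,
        show (2 : ℤ) - 1 = 1 by norm_num, zpow_one, Nat.cast_mul, map_mul]
      have key := hrec ℓ hℓ hℓN m
      by_cases hdvd : ℓ ∣ m
      · rw [if_pos hdvd] at key
        rw [if_pos hdvd]
        have hm : χ (m : ZMod Q) = χ (ℓ : ZMod Q) * χ ((m / ℓ : ℕ) : ZMod Q) := by
          rw [← map_mul, ← Nat.cast_mul, Nat.mul_div_cancel' hdvd]
        rw [hm]
        linear_combination (χ (ℓ : ZMod Q) ^ 2 * χ ((m / ℓ : ℕ) : ZMod Q)) * key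
          - (χ ((m / ℓ : ℕ) : ZMod Q) * (ℓ : ℂ) * a (m / ℓ)) * hψχ ℓ hℓ hℓN
      · rw [if_neg hdvd, add_zero] at key
        rw [if_neg hdvd, add_zero]
        linear_combination (χ (m : ZMod Q) * χ (ℓ : ZMod Q)) * key)
    (fun q _ hqN hq => absurd hqN hq)
  exact ⟨g, hg, fun ℓ hℓ hℓN => hgl ℓ hℓ hℓN⟩

omit [NeZero Q] in
theorem hasSum_cuspForm [NeZero N] (f : CuspForm (Gamma0 N) 2) (τ : ℍ) :
    HasSum (fun m : ℕ => qCoeff f m • Function.Periodic.qParam 1 (τ : ℂ) ^ m) (f τ) := by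
  have : Fact (IsCusp OnePoint.infty (Gamma0 N : Subgroup (GL (Fin 2) ℝ))) :=
    ⟨Subgroup.isCusp_of_mem_strictPeriods one_pos (Quick.one_mem_strictPeriods N)⟩
  exact hasSum_qExpansion (f := ⇑f) one_pos
    (SlashInvariantFormClass.periodic_comp_ofComplex f (Quick.one_mem_strictPeriods N))
    f.holo' (ModularFormClass.bdd_at_infty f) τ

/-- The quadratic twist of a normalised eigenform. -/
theorem exists_eigenform_quadraticTwist [NeZero N] [NeZero N'] (χ : DirichletCharacter ℂ Q)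
    (hχ : χ ^ 2 = 1) (hN : N ∣ N') (hQ : Q ^ 2 ∣ N') {f : CuspForm (Gamma0 N) 2}
    (hf : f.IsNormalizedEigenform) :
    ∃ g : CuspForm (Gamma0 N') 2, g.IsNormalizedEigenform ∧
      ∀ ℓ : ℕ, ℓ.Prime → ¬ ℓ ∣ N' → qCoeff g ℓ = χ (ℓ : ZMod Q) * qCoeff f ℓ := by
  have h2 : ∀ x : ZMod Q, IsUnit x → χ x ^ 2 = 1 := fun x hx => by
    rw [← MulChar.pow_apply' χ two_ne_zero, hχ, MulChar.one_apply hx]
  have hunit : ∀ ℓ : ℕ, ℓ.Prime → ¬ ℓ ∣ N' → IsUnit (ℓ : ZMod Q) := fun ℓ hℓ hℓN =>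
    (ZMod.isUnit_iff_coprime ℓ Q).mpr ((hℓ.coprime_iff_not_dvd).mpr fun h =>
      hℓN (h.trans ((dvd_pow_self Q two_ne_zero).trans hQ)))
  refine exists_eigenform_twist χ ((isCF_cuspForm f).isCFChar (C := 1) (one_dvd N)) hN hQ
    (by rw [one_mul]; exact (dvd_pow_self Q two_ne_zero).trans hQ) (fun γ hγ => ?_)
    (hasSum_cuspForm f) ⟨1, by rw [Nat.cast_one, map_one, one_mul, hf.qCoeff_one]; exact one_ne_zero⟩
    (fun ℓ => qCoeff f ℓ) (fun ℓ hℓ hℓN => ?_) (fun ℓ hℓ hℓN m => ?_)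
  · rw [MulChar.one_apply (isUnit_of_subsingleton _), one_mul]
    refine h2 _ (IsUnit.of_mul_eq_one ((γ 0 0 : ℤ) : ZMod Q) ?_)
    have := congrArg (fun z : ℤ => (z : ZMod Q)) (det_matSL γ)
    push_cast at this
    rw [show ((matSL γ 1 0 : ℤ) : ZMod Q) = 0 from (ZMod.intCast_zmod_eq_zero_iff_dvd _ _).mpr
      ((Int.natCast_dvd_natCast.mpr ((dvd_pow_self Q two_ne_zero).trans hQ)).trans
        (mem_gamma0_iff.mp hγ))] at this
    show ((matSL γ 1 1 : ℤ) : ZMod Q) * ((matSL γ 0 0 : ℤ) : ZMod Q) = 1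
    linear_combination this
  · rw [MulChar.one_apply (isUnit_of_subsingleton _), one_mul, h2 _ (hunit ℓ hℓ hℓN)]
  · have hℓ' : ¬ ℓ ∣ N := fun h => hℓN (h.trans hN)
    have h := congrArg (fun v : CuspForm (Gamma0 N) 2 => qCoeff v m)
      (Quick.heckeTLin_eigenform hf hℓ hℓ')
    simp only [Quick.qCoeff_heckeTLin, Quick.qCoeff_smul'] at h
    rw [show (2 : ℤ) - 1 = 1 by norm_num, zpow_one] at h
    rw [MulChar.one_apply (isUnit_of_subsingleton _), one_mul]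
    exact h

end FLTAgent.Newform
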