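import Fermat.Agent.Newform.AtkinLehner
import Fermat.Agent.Newform.Twist

/-!
# Forms with coefficients supported on multiples of a prime, and equality at all good primes
-/

set_option autoImplicit false

noncomputable section

namespace FLTAgent.Newform

open UpperHalfPlane CongruenceSubgroup ModularFormClass LevelRaise
open scoped MatrixGroups ModularForm Manifold

variable {p : ℕ} [NeZero p]

theorem det_gDown_ne_zero : (gDown p).det ≠ 0 := det_gDown_pos.ne'

omit [NeZero p] in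
theorem gDown_eq_tRepZ [NeZero p] : gDown p = tRepZ p (some 0) := by
  simp [gDown, tRepZ]

theorem slash_gDown (F : ℍ → ℂ) (τ : ℍ) :
    (F ∣[(2 : ℤ)] matGL (gDown p)) τ = (p : ℂ)⁻¹ * F (ModularForm.heckeMatrix p 0 • τ) := by
  have e : matGL (gDown p) = ModularForm.heckeMatrix p 0 := by
    rw [gDown_eq_tRepZ, matGL_tRepZ, Periods.tRep, ZMod.val_zero]
  rw [e, ModularForm.slash_heckeMatrix_apply 2 (NeZero.ne p)]

variable {K : ℕ} [NeZero K]

/-- A form of level `K p` whose coefficients live on multiples of `p` is `u(pτ)` with `u` of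
level `K`. -/
theorem exists_eq_scaleUp (hp : p.Prime) (v : CuspForm (Gamma0 (K * p)) 2)
    (hv : ∀ n, ¬ p ∣ n → qCoeff v n = 0) :
    ∃ u : CuspForm (Gamma0 K) 2, scaleUp hp.ne_zero (dvd_refl (K * p)) u = v := by
  have : Fact p.Prime := ⟨hp⟩
  have hp0 : (p : ℂ) ≠ 0 := NeZero.ne _
  have hdet : ∀ s : SL(2, ℤ), (matSL s).det ≠ 0 := det_matSL_ne_zero
  have hval : ∀ (G : ℍ → ℂ) (τ : ℍ),
      ((p : ℂ) • (G ∣[(2 : ℤ)] matGL (gDown p))) τ = G (ModularForm.heckeMatrix p 0 • τ) := by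
    intro G τ
    rw [Pi.smul_apply, slash_gDown, smul_eq_mul, mul_inv_cancel_left₀ hp0]
  obtain ⟨u, hu⟩ : ∃ u : ℍ → ℂ, u = (p : ℂ) • (⇑v ∣[(2 : ℤ)] matGL (gDown p)) := ⟨_, rfl⟩
  have hupper : ∀ γ ∈ upper0 K p, u ∣[(2 : ℤ)] (γ : GL (Fin 2) ℝ) = u := by
    intro γ hγ
    obtain ⟨δ, hδ, e⟩ := exists_gDown_eq hγ
    have e' := congrArg matGL e
    rw [matGL_mul det_gDown_ne_zero (hdet _), matGL_mul (hdet _) det_gDown_ne_zero, matGL_matSL,
      matGL_matSL] at e'
    have h1 : 0 < ((γ : GL (Fin 2) ℝ).det : ℝ) := by simp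
    rw [hu, ModularForm.smul_slash, UpperHalfPlane.σ, if_pos h1, ← SlashAction.slash_mul, e',
      SlashAction.slash_mul, (isCF_cuspForm v).inv δ hδ]
    rfl
  have hT : ∀ τ : ℍ, u ((1 : ℝ) +ᵥ τ) = u τ := by
    intro τ
    rw [hu, hval, hval]
    refine (hasSum_cuspForm v _).unique ?_
    refine (hasSum_cuspForm v _).congr_fun fun m => ?_
    by_cases hm : p ∣ m
    · obtain ⟨c, rfl⟩ := hm
      congr 1
      rw [ModularForm.coe_heckeMatrix_smul (NeZero.ne p), ModularForm.coe_heckeMatrix_smul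
        (NeZero.ne p), UpperHalfPlane.coe_vadd]
      simp only [Function.Periodic.qParam, ← Complex.exp_nat_mul]
      rw [Complex.exp_eq_exp_iff_exists_int]
      exact ⟨c, by push_cast; field_simp; ring⟩
    · rw [hv m hm, zero_smul, zero_smul]
  have hTs : u ∣[(2 : ℤ)] (ModularGroup.T : GL (Fin 2) ℝ) = u := by
    funext τ
    show (u ∣[(2 : ℤ)] (ModularGroup.T : SL(2, ℤ))) τ = _
    rw [ModularForm.SL_slash_apply, UpperHalfPlane.modular_T_smul, hT]
    simp [UpperHalfPlane.denom, ModularGroup.coe_T]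
  have hTz : ∀ j : ℤ, u ∣[(2 : ℤ)] ((ModularGroup.T ^ j : SL(2, ℤ)) : GL (Fin 2) ℝ) = u := by
    intro j
    induction j with
    | zero => simp
    | succ j ih => rw [_root_.zpow_add, zpow_one, map_mul, map_mul, SlashAction.slash_mul, ih, hTs]
    | pred j ih =>
      rw [sub_eq_add_neg, _root_.zpow_add, zpow_neg_one, map_mul, map_mul, SlashAction.slash_mul, ih]
      conv_lhs => rw [← hTs]
      rw [← SlashAction.slash_mul, ← map_mul, ← map_mul, mul_inv_cancel, map_one, map_one,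
        SlashAction.slash_one]
  have hinv : ∀ γ ∈ Gamma0 K, u ∣[(2 : ℤ)] (γ : GL (Fin 2) ℝ) = u := by
    intro γ hγ
    have hTmem : ∀ j : ℤ, ModularGroup.T ^ j ∈ Gamma0 K := fun j => mem_gamma0_iff.mpr (by
      simp [matSL, ModularGroup.coe_T_zpow])
    have hex : ∃ i : ℤ, ((matSL (ModularGroup.T ^ i * γ) 0 0 : ℤ) : ZMod p) ≠ 0 := by
      by_cases h0 : ((matSL γ 0 0 : ℤ) : ZMod p) = 0
      · refine ⟨1, ?_⟩
        have he : matSL (ModularGroup.T ^ (1 : ℤ) * γ) 0 0 = matSL γ 0 0 + matSL γ 1 0 := by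
          simp [matSL, ModularGroup.coe_T, Matrix.mul_apply, Fin.sum_univ_two]
        rw [he, Int.cast_add, h0, zero_add]
        intro h1
        have := congrArg (fun z : ℤ => (z : ZMod p)) (det_matSL γ)
        push_cast at this
        simp [h0, h1] at this
      · exact ⟨0, by simpa using h0⟩
    obtain ⟨i, hi⟩ := hex
    obtain ⟨g, hg⟩ : ∃ g, g = ModularGroup.T ^ i * γ := ⟨_, rfl⟩
    rw [← hg] at hi
    obtain ⟨j, hj⟩ : ∃ j : ℕ,
        (j : ZMod p) = ((matSL g 0 1 : ℤ) : ZMod p) / ((matSL g 0 0 : ℤ) : ZMod p) :=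
      ⟨_, ZMod.natCast_zmod_val _⟩
    have hmem : g * ModularGroup.T ^ (-(j : ℤ)) ∈ upper0 K p := by
      refine ⟨mul_mem (hg ▸ mul_mem (hTmem i) hγ) (hTmem _), ?_⟩
      rw [← ZMod.intCast_zmod_eq_zero_iff_dvd]
      have he : matSL (g * ModularGroup.T ^ (-(j : ℤ))) 0 1
          = matSL g 0 0 * (-(j : ℤ)) + matSL g 0 1 := by
        rw [matSL, Matrix.SpecialLinearGroup.coe_mul, ModularGroup.coe_T_zpow]
        simp [Matrix.mul_apply, Fin.sum_univ_two]
      rw [he]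
      push_cast
      rw [hj]
      field_simp
      ring
    have hγe : γ = ModularGroup.T ^ (-i) * (g * ModularGroup.T ^ (-(j : ℤ))) * ModularGroup.T ^ (j : ℤ) := by
      rw [hg]; group
    rw [hγe, map_mul, map_mul, map_mul, map_mul, SlashAction.slash_mul, SlashAction.slash_mul,
      hTz, hupper _ hmem, hTz]
  have hCF : IsCF K 2 u := by
    refine ⟨hu ▸ (((isCF_cuspForm v).holo.slash 2 _).const_smul _), hinv, fun c hc => ?_⟩
    intro g hg
    rw [hu, ModularForm.smul_slash]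
    exact (isZeroAt_slash_matGL v det_gDown_ne_zero hc g hg).smul _
  refine ⟨hCF.toCF, DFunLike.ext _ _ fun τ => ?_⟩
  rw [scaleUp_apply, IsCF.coe_toCF, hu, hval]
  refine congrArg v (UpperHalfPlane.ext ?_)
  rw [ModularForm.coe_heckeMatrix_smul (NeZero.ne p),
    ModularForm.coe_heckeDiagMatrix_smul (NeZero.ne p)]
  field_simp
  simp

/-- A form of level prime to `p` whose coefficients live on multiples of `p` vanishes. -/
theorem eq_zero_of_qCoeff_support (hp : p.Prime) (hpK : ¬ p ∣ K) (v : CuspForm (Gamma0 K) 2)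
    (hv : ∀ n, ¬ p ∣ n → qCoeff v n = 0) : v = 0 := by
  have hp0 : (p : ℂ) ≠ 0 := NeZero.ne _
  obtain ⟨u, hu⟩ := exists_eq_scaleUp hp (levelUp (dvd_mul_right K p) v) hv
  have hup : ∀ τ : ℍ, v τ = u (ModularForm.heckeDiagMatrix p • τ) := fun τ => by
    rw [← scaleUp_apply hp.ne_zero (dvd_refl (K * p)) u τ, hu]; rfl
  obtain ⟨x, y, hxy⟩ := exists_bezout hp hpK
  let r : SL(2, ℤ) := slMk 1 (-y) (-K) ((p : ℤ) * x) (by linear_combination hxy)
  let ε : SL(2, ℤ) := slMk (p : ℤ) (-y) (-K) x (by linear_combination hxy)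
  have hr : r ∈ Gamma0 K := mem_gamma0_iff.mpr (by simp [r])
  have hε : ε ∈ Gamma0 K := mem_gamma0_iff.mpr (by simp [ε])
  have hre : gUp p * matSL r = matSL ε * gDown p := by
    ext i j
    fin_cases i <;> fin_cases j <;> simp [r, ε, Matrix.mul_apply, Fin.sum_univ_two] <;> ring
  have hkey : (⇑u) ∣[(2 : ℤ)] matGL (gDown p) = (p : ℂ) • ⇑v := by
    have hdiag : (⇑u) ∣[(2 : ℤ)] matGL (gUp p) = (p : ℂ) • ⇑v := by
      funext τ
      rw [matGL_gUp hp.ne_zero, ModularForm.slash_heckeDiagMatrix_apply 2 hp.ne_zero, Pi.smul_apply,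
        hup, smul_eq_mul, show (2 : ℤ) - 1 = 1 by norm_num, zpow_one]
    have e := congrArg matGL hre
    rw [matGL_mul det_gUp_pos.ne' (det_matSL_ne_zero _),
      matGL_mul (det_matSL_ne_zero _) det_gDown_ne_zero, matGL_matSL, matGL_matSL] at e
    calc (⇑u) ∣[(2 : ℤ)] matGL (gDown p)
        = ((⇑u) ∣[(2 : ℤ)] (ε : GL (Fin 2) ℝ)) ∣[(2 : ℤ)] matGL (gDown p) := by
          rw [(isCF_cuspForm u).inv ε hε]
      _ = ((⇑u) ∣[(2 : ℤ)] matGL (gUp p)) ∣[(2 : ℤ)] (r : GL (Fin 2) ℝ) := by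
          rw [← SlashAction.slash_mul, ← e, SlashAction.slash_mul]
      _ = (p : ℂ) • ⇑v := by
          have h1 : 0 < ((r : GL (Fin 2) ℝ).det : ℝ) := by simp
          rw [hdiag, ModularForm.smul_slash, UpperHalfPlane.σ, if_pos h1,
            (isCF_cuspForm v).inv r hr]
          rfl
  have hfun : ∀ τ : ℍ, u τ = (p : ℂ) ^ 2 * u (ModularForm.heckeDiagMatrix p •
      (ModularForm.heckeDiagMatrix p • τ)) := by
    intro τ
    have h := congrFun hkey (ModularForm.heckeDiagMatrix p • τ)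
    rw [slash_gDown, Pi.smul_apply, hup, smul_eq_mul,
      show ModularForm.heckeMatrix p 0 • (ModularForm.heckeDiagMatrix p • τ) = τ from
        UpperHalfPlane.ext (by
          rw [ModularForm.coe_heckeMatrix_smul (NeZero.ne p),
            ModularForm.coe_heckeDiagMatrix_smul (NeZero.ne p)]
          field_simp
          simp), inv_mul_eq_iff_eq_mul₀ hp0] at h
    rw [h]
    ring
  have hco : ∀ n, qCoeff u n = if p * p ∣ n then (p : ℂ) ^ 2 * qCoeff u (n / (p * p)) else 0 := by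
    refine qCoeff_eq_of_hasSum u fun τ => ?_
    rw [hfun τ]
    have hs := (hasSum_cuspForm u (ModularForm.heckeDiagMatrix p •
      (ModularForm.heckeDiagMatrix p • τ))).mul_left ((p : ℂ) ^ 2)
    refine ((mul_right_injective₀ (mul_ne_zero hp.ne_zero hp.ne_zero)).hasSum_iff
      (fun m hm => ?_)).mp ?_
    · have : ¬ p * p ∣ m := fun ⟨c, hc⟩ => hm ⟨c, hc.symm⟩
      rw [if_neg this, zero_smul]
    · refine hs.congr_fun fun m => ?_
      simp only [Function.comp_apply, dvd_mul_right, if_true, qParam_diag hp.ne_zero, ← pow_mul,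
        Nat.mul_div_cancel_left m (mul_pos hp.pos hp.pos), smul_eq_mul]
      ring
  have hu0 : u = 0 := by
    refine Quick.eq_zero_of_qCoeff_eq_zero fun n => ?_
    induction n using Nat.strong_induction_on with
    | _ n ih =>
      rcases Nat.eq_zero_or_pos n with rfl | hn
      · exact Quick.qCoeff_zero_index u
      rw [hco n]
      split_ifs with h
      · rw [ih _ (Nat.div_lt_self hn (one_lt_mul'' hp.one_lt hp.one_lt)), mul_zero]
      · rfl
  rw [hu0, map_zero] at hu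
  exact levelUp_injective (dvd_mul_right K p) (hu.symm.trans (map_zero _).symm)

omit [NeZero K] [NeZero p] in
/-- Coefficients are determined by the eigenvalues at the primes dividing the index. -/
theorem qCoeff_eq_of_prime_eq {N₁ N₂ : ℕ} {f : CuspForm (Gamma0 N₁) 2} {g : CuspForm (Gamma0 N₂) 2}
    (hf : f.IsNormalizedEigenform) (hg : g.IsNormalizedEigenform) :
    ∀ n : ℕ, 0 < n →
      (∀ ℓ : ℕ, ℓ.Prime → ℓ ∣ n → ¬ ℓ ∣ N₁ ∧ ¬ ℓ ∣ N₂ ∧ qCoeff f ℓ = qCoeff g ℓ) →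
      qCoeff f n = qCoeff g n := by
  intro n
  induction n using Nat.recOnPrimeCoprime with
  | zero => exact fun h => absurd h (lt_irrefl 0)
  | prime_pow ℓ r hℓ =>
    intro _ h
    induction r using Nat.strong_induction_on with
    | _ r ih =>
      rcases r with _ | _ | r
      · rw [pow_zero, hf.qCoeff_one, hg.qCoeff_one]
      · rw [zero_add, pow_one]
        exact (h ℓ hℓ (by simp)).2.2
      · obtain ⟨h1, h2, h3⟩ := h ℓ hℓ (dvd_pow_self ℓ (Nat.succ_ne_zero _))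
        have hd : ∀ s, ∀ ℓ' : ℕ, ℓ'.Prime → ℓ' ∣ ℓ ^ s →
            ¬ ℓ' ∣ N₁ ∧ ¬ ℓ' ∣ N₂ ∧ qCoeff f ℓ' = qCoeff g ℓ' := fun s ℓ' hℓ' hdvd => by
          obtain rfl := (Nat.prime_dvd_prime_iff_eq hℓ' hℓ).mp (hℓ'.dvd_of_dvd_pow hdvd)
          exact ⟨h1, h2, h3⟩
        rw [hf.qCoeff_prime_pow_of_not_dvd ℓ r hℓ h1, hg.qCoeff_prime_pow_of_not_dvd ℓ r hℓ h2,
          ih (r + 1) (by omega) (pow_pos hℓ.pos _) (hd _),
          ih r (by omega) (pow_pos hℓ.pos _) (hd _), h3]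
  | coprime a b ha hb hab iha ihb =>
    intro _ h
    rw [hf.qCoeff_mul_of_coprime _ _ hab, hg.qCoeff_mul_of_coprime _ _ hab,
      iha (by omega) (fun ℓ hℓ hd => h ℓ hℓ (hd.mul_right b)),
      ihb (by omega) (fun ℓ hℓ hd => h ℓ hℓ (hd.mul_left a))]

/-- Removing the coefficients at multiples of the primes in `D`. -/
theorem exists_depleted {L q : ℕ} [NeZero L] (hq : q.Prime) (hqL : ¬ q ∣ L)
    (v : CuspForm (Gamma0 L) 2) (D : Finset ℕ) (hD : ∀ r ∈ D, r.Prime ∧ r ≠ q) :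
    ∃ (L' : ℕ) (_ : NeZero L') (w : CuspForm (Gamma0 L') 2), ¬ q ∣ L' ∧
      ∀ n, qCoeff w n = if ∀ r ∈ D, ¬ r ∣ n then qCoeff v n else 0 := by
  induction D using Finset.induction_on with
  | empty => exact ⟨L, inferInstance, v, hqL, fun n => by simp⟩
  | @insert r D hr ih =>
    obtain ⟨L', hL', w, hqL', hw⟩ := ih fun s hs => hD s (Finset.mem_insert_of_mem hs)
    obtain ⟨hrp, hrq⟩ := hD r (Finset.mem_insert_self r D)
    have : NeZero r := ⟨hrp.ne_zero⟩
    have hqr : ¬ q ∣ r := fun h => hrq ((Nat.prime_dvd_prime_iff_eq hq hrp).mp h).symm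
    refine ⟨L' * r * r, inferInstance,
      levelUp ((dvd_mul_right L' r).trans (dvd_mul_right _ r)) w
        - scaleUp hrp.ne_zero (dvd_refl (L' * r * r))
            (CuspForm.heckeULin 2 (dvd_mul_left r L') (levelUp (dvd_mul_right L' r) w)), ?_,
      fun n => ?_⟩
    · intro h
      rcases hq.dvd_mul.mp h with h | h
      · exact (hq.dvd_mul.mp h).elim hqL' hqr
      · exact hqr h
    · rw [Quick.qCoeff_sub', qCoeff_levelUp, qCoeff_scaleUp, Quick.qCoeff_heckeULin hrp,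
        qCoeff_levelUp]
      by_cases hrn : r ∣ n
      · rw [if_pos hrn, Nat.div_mul_cancel hrn, sub_self,
          if_neg fun h => h r (Finset.mem_insert_self r D) hrn]
      · rw [if_neg hrn, sub_zero, hw]
        refine if_congr ⟨fun h s hs => ?_, fun h s hs => h s (Finset.mem_insert_of_mem hs)⟩ rfl rfl
        rcases Finset.mem_insert.mp hs with rfl | hs
        · exact hrn
        · exact h s hs

omit [NeZero K] [NeZero p] in
/-- Eigenforms with the same eigenvalues at almost all primes agree at every good prime. -/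
theorem qCoeff_eq_of_ae_eq {N₁ N₂ : ℕ} [NeZero N₁] [NeZero N₂] {f : CuspForm (Gamma0 N₁) 2}
    {g : CuspForm (Gamma0 N₂) 2} (hf : f.IsNormalizedEigenform) (hg : g.IsNormalizedEigenform)
    (S : Finset ℕ) (h : ∀ ℓ : ℕ, ℓ.Prime → ℓ ∉ S → qCoeff f ℓ = qCoeff g ℓ)
    {q : ℕ} (hq : q.Prime) (h1 : ¬ q ∣ N₁) (h2 : ¬ q ∣ N₂) : qCoeff f q = qCoeff g q := by
  classical
  have : NeZero q := ⟨hq.ne_zero⟩
  have : NeZero (N₁ * N₂) := ⟨mul_ne_zero (NeZero.ne _) (NeZero.ne _)⟩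
  have hqL : ¬ q ∣ N₁ * N₂ := fun hd => (hq.dvd_mul.mp hd).elim h1 h2
  let D : Finset ℕ := ((S ∪ (N₁ * N₂).primeFactors).filter Nat.Prime).erase q
  obtain ⟨L', hL', w, hqL', hw⟩ := exists_depleted hq hqL
    (levelUp (dvd_mul_right N₁ N₂) f - levelUp (dvd_mul_left N₂ N₁) g) D fun r hr =>
      ⟨(Finset.mem_filter.mp (Finset.mem_of_mem_erase hr)).2, Finset.ne_of_mem_erase hr⟩
  have hw' : ∀ n, qCoeff w n = if ∀ r ∈ D, ¬ r ∣ n then qCoeff f n - qCoeff g n else 0 := fun n => by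
    rw [hw, Quick.qCoeff_sub', qCoeff_levelUp, qCoeff_levelUp]
  have hsupp : ∀ n, ¬ q ∣ n → qCoeff w n = 0 := by
    intro n hqn
    rw [hw']
    split_ifs with hn
    · rcases Nat.eq_zero_or_pos n with rfl | hn0
      · exact absurd (dvd_zero q) hqn
      rw [sub_eq_zero]
      refine qCoeff_eq_of_prime_eq hf hg n hn0 fun ℓ hℓ hℓn => ?_
      have hℓD : ℓ ∉ D := fun hd => hn ℓ hd hℓn
      have hℓq : ℓ ≠ q := fun e => hqn (e ▸ hℓn)
      have hℓS : ℓ ∉ S ∪ (N₁ * N₂).primeFactors := fun hd =>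
        hℓD (Finset.mem_erase.mpr ⟨hℓq, Finset.mem_filter.mpr ⟨hd, hℓ⟩⟩)
      rw [Finset.mem_union, not_or] at hℓS
      have hℓN : ¬ ℓ ∣ N₁ * N₂ := fun hd =>
        hℓS.2 (Nat.mem_primeFactors.mpr ⟨hℓ, hd, NeZero.ne _⟩)
      exact ⟨fun hd => hℓN (hd.mul_right N₂), fun hd => hℓN (hd.mul_left N₁), h ℓ hℓ hℓS.1⟩
    · rfl
  have hw0 := eq_zero_of_qCoeff_support hq hqL' w hsupp
  have hq0 := hw' q
  rw [if_pos fun r hr hd => (Finset.ne_of_mem_erase hr)
      ((Nat.prime_dvd_prime_iff_eq (Finset.mem_filter.mp (Finset.mem_of_mem_erase hr)).2 hq).mp hd),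
    hw0, show qCoeff ⇑(0 : CuspForm (Gamma0 L') 2) q = 0 from (Quick.qCoeffLin L' 2 q).map_zero]
    at hq0
  exact sub_eq_zero.mp hq0.symm

end FLTAgent.Newform
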